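import Fermat.Agent.S39.FinMult.Defs
import Fermat.Agent.S05.H15_Val

/-!
# S39 leaf FinMult, NODE-ARITH (helper67): the node model of an integral Weierstrass curve

* `stmt_NodePeu : Stmt_NodePeu` : if `p ∣ v_p(Δ)`, `p ∣ Δ`, `p` odd, then `|Δ| = |c₀| ^ p` for a
  rational `c₀` (a power of `p`), and `|Δ| ≤ |p|²`;
* `stmt_NodeArith : Stmt_NodeArith` : the node model
  `y² = x³ + a x² + b x + c`, `a = 3 x₀ + b₂/4 = -c₆/(4 c₄)`,
  `b = 3 x₀² + b₂ x₀/2 + b₄/2 = -36 Δ/c₄²`, `c = x₀³ + b₂ x₀²/4 + b₄ x₀/2 + b₆/4 = Δ c₆/c₄³`,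
  `x₀ = (18 b₆ - b₂ b₄)/c₄`, obtained from `W` by `x = X - x₀`, `y = Y + (a₁ X + a₃)/2`.

This file contains no `sorry`.
-/

set_option autoImplicit false
set_option maxHeartbeats 1000000
set_option linter.style.haveILetI false

namespace Fermat.Agent.S39.FinMult.H67

open WeierstrassCurve WeierstrassCurve.Affine
open Fermat.Agent.S05.H15 Fermat.Agent.S05.H14

/-! ## NODE-PEU -/

/-- An integer `n ≠ 0` is `p ^ v * m` with `v = v_p(n)` and `p ∤ m`. -/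
theorem exists_eq_pow_mul (p : ℕ) (hp : p.Prime) (n : ℤ) (hn : n ≠ 0) :
    ∃ m : ℤ, n = (p : ℤ) ^ padicValInt p n * m ∧ ¬ (p : ℤ) ∣ m := by
  haveI : Fact p.Prime := ⟨hp⟩
  obtain ⟨m, hm⟩ := padicValInt_dvd (p := p) n
  refine ⟨m, hm, fun hdvd => ?_⟩
  obtain ⟨m', rfl⟩ := hdvd
  have h1 : (p : ℤ) ^ (padicValInt p n + 1) ∣ n := by
    refine ⟨m', ?_⟩
    rw [pow_succ, mul_assoc]
    exact hm
  rcases (padicValInt_dvd_iff (p := p) _ n).1 h1 with h | h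
  · exact hn h
  · omega

theorem stmt_NodePeu : Stmt_NodePeu := by
  intro W hΔ p hp hp2 hpΔ hpeu A hA
  haveI : Fact p.Prime := ⟨hp⟩
  have hq : ((p : ℕ) : AlgebraicClosure ℚ) ∈ A.nonunits := hA
  have hΔq : (W.map (Int.castRingHom ℚ)).Δ = ((W.Δ : ℤ) : ℚ) := by
    rw [WeierstrassCurve.map_Δ]
    rfl
  unfold WeierstrassCurve.IsPeuRamifieeAt at hpeu
  rw [hΔq, padicValRat.of_int] at hpeu
  obtain ⟨k, hk⟩ : p ∣ padicValInt p W.Δ := Int.natCast_dvd_natCast.mp hpeu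
  obtain ⟨m, hm, hpm⟩ := exists_eq_pow_mul p hp W.Δ hΔ
  have hv1 : 1 ≤ padicValInt p W.Δ := by
    by_contra h
    have h0 : padicValInt p W.Δ = 0 := by omega
    rw [h0, pow_zero, one_mul] at hm
    exact hpm (hm ▸ hpΔ)
  have hp3 : 3 ≤ p := by
    have := hp.two_le
    omega
  have hk1 : 1 ≤ k := by
    by_contra h
    have h0 : k = 0 := by omega
    rw [h0, mul_zero] at hk
    omega
  have hv2 : 2 ≤ padicValInt p W.Δ := by
    rw [hk]
    nlinarith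
  have hpl : A.valuation ((p : ℕ) : AlgebraicClosure ℚ) < 1 := valuation_lt_one_of_mem_nonunits hq
  have hmval : A.valuation ((m : ℤ) : AlgebraicClosure ℚ) = 1 :=
    valuation_intCast_eq_one_of_not_dvd hp hq hpm
  have hcast : ((((W.Δ : ℤ) : ℚ)) : AlgebraicClosure ℚ)
      = ((p : ℕ) : AlgebraicClosure ℚ) ^ padicValInt p W.Δ * ((m : ℤ) : AlgebraicClosure ℚ) := by
    rw [Rat.cast_intCast]
    conv_lhs => rw [hm]
    push_cast
    rfl
  have hval : A.valuation ((((W.Δ : ℤ) : ℚ)) : AlgebraicClosure ℚ)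
      = A.valuation ((p : ℕ) : AlgebraicClosure ℚ) ^ padicValInt p W.Δ := by
    rw [hcast, map_mul, map_pow, hmval, mul_one]
  refine ⟨(p : ℚ) ^ k, ?_, ?_⟩
  · rw [hval, map_pow, map_natCast, map_pow, ← pow_mul, hk, mul_comm]
  · rw [hval]
    exact pow_le_pow_right_of_le_one' hpl.le hv2

/-! ## NODE-ARITH -/

/-- A change of variables is preserved by a homomorphism of fields. -/
theorem isVarChange_map {F K : Type*} [Field F] [Field K] (φ : F →+* K)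
    {E G : WeierstrassCurve F} {u r s t : F} (h : IsVarChange E G u r s t) :
    IsVarChange (E.map φ) (G.map φ) (φ u) (φ r) (φ s) (φ t) where
  hu := (map_ne_zero φ).2 h.hu
  h₁ := by simpa [map_ofNat] using congrArg φ h.h₁
  h₂ := by simpa [map_ofNat] using congrArg φ h.h₂
  h₃ := by simpa [map_ofNat] using congrArg φ h.h₃
  h₄ := by simpa [map_ofNat] using congrArg φ h.h₄
  h₆ := by simpa [map_ofNat] using congrArg φ h.h₆

/-- The node model with parameter `x₀` of a Weierstrass curve over a field in which `2` is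
invertible. -/
def nodeModel {F : Type*} [Field F] (W : WeierstrassCurve F) (x₀ : F) : WeierstrassCurve F :=
  ⟨0, 3 * x₀ + W.b₂ / 4, 0, 3 * x₀ ^ 2 + W.b₂ * x₀ / 2 + W.b₄ / 2,
    x₀ ^ 3 + W.b₂ * x₀ ^ 2 / 4 + W.b₄ * x₀ / 2 + W.b₆ / 4⟩

theorem four_ne_zero_of_two {F : Type*} [Field F] (h2 : (2 : F) ≠ 0) : (4 : F) ≠ 0 := by
  have h : (4 : F) = 2 * 2 := by norm_num
  rw [h]
  exact mul_ne_zero h2 h2

theorem isVarChange_nodeModel {F : Type*} [Field F] (h2 : (2 : F) ≠ 0) (W : WeierstrassCurve F)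
    (x₀ : F) : IsVarChange W (nodeModel W x₀) 1 (-x₀) (W.a₁ / 2) (W.a₃ / 2) := by
  have h4 : (4 : F) ≠ 0 := four_ne_zero_of_two h2
  refine ⟨one_ne_zero, ?_, ?_, ?_, ?_, ?_⟩
  · simp only [nodeModel]; field_simp; ring
  · simp only [nodeModel, WeierstrassCurve.b₂]; field_simp; ring
  · simp only [nodeModel]; field_simp; ring
  · simp only [nodeModel, WeierstrassCurve.b₂, WeierstrassCurve.b₄]; field_simp; ring
  · simp only [nodeModel, WeierstrassCurve.b₂, WeierstrassCurve.b₄, WeierstrassCurve.b₆]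
    field_simp
    ring

theorem nodeModel_Δ {F : Type*} [Field F] (h2 : (2 : F) ≠ 0) (W : WeierstrassCurve F)
    (x₀ : F) : (nodeModel W x₀).Δ = W.Δ := by
  have h4 : (4 : F) ≠ 0 := four_ne_zero_of_two h2
  simp only [nodeModel, WeierstrassCurve.Δ, WeierstrassCurve.b₂, WeierstrassCurve.b₄,
    WeierstrassCurve.b₆, WeierstrassCurve.b₈]
  field_simp
  ring

/-- The centre of the node. -/
def nodeX {F : Type*} [Field F] (W : WeierstrassCurve F) : F :=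
  (18 * W.b₆ - W.b₂ * W.b₄) / W.c₄

theorem nodeModel_a₂ {F : Type*} [Field F] (h2 : (2 : F) ≠ 0) (W : WeierstrassCurve F)
    (hc : W.c₄ ≠ 0) : (nodeModel W (nodeX W)).a₂ = -W.c₆ / (4 * W.c₄) := by
  have h4 : (4 : F) ≠ 0 := four_ne_zero_of_two h2
  simp only [nodeModel, nodeX]
  field_simp
  simp only [WeierstrassCurve.c₄, WeierstrassCurve.c₆, WeierstrassCurve.b₂,
    WeierstrassCurve.b₄, WeierstrassCurve.b₆]
  ring

theorem nodeModel_a₄ {F : Type*} [Field F] (h2 : (2 : F) ≠ 0) (W : WeierstrassCurve F)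
    (hc : W.c₄ ≠ 0) : (nodeModel W (nodeX W)).a₄ = -36 * W.Δ / W.c₄ ^ 2 := by
  have h4 : (4 : F) ≠ 0 := four_ne_zero_of_two h2
  simp only [nodeModel, nodeX]
  field_simp
  simp only [WeierstrassCurve.c₄, WeierstrassCurve.Δ, WeierstrassCurve.b₂,
    WeierstrassCurve.b₄, WeierstrassCurve.b₆, WeierstrassCurve.b₈]
  ring

theorem nodeModel_a₆ {F : Type*} [Field F] (h2 : (2 : F) ≠ 0) (W : WeierstrassCurve F)
    (hc : W.c₄ ≠ 0) : (nodeModel W (nodeX W)).a₆ = W.Δ * W.c₆ / W.c₄ ^ 3 := by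
  have h4 : (4 : F) ≠ 0 := four_ne_zero_of_two h2
  simp only [nodeModel, nodeX]
  field_simp
  simp only [WeierstrassCurve.c₄, WeierstrassCurve.c₆, WeierstrassCurve.Δ,
    WeierstrassCurve.b₂, WeierstrassCurve.b₄, WeierstrassCurve.b₆, WeierstrassCurve.b₈]
  ring

theorem stmt_NodeArith : Stmt_NodeArith := by
  intro W hΔ p hp hp2 hpΔ hpc4 A hA
  have hq : ((p : ℕ) : AlgebraicClosure ℚ) ∈ A.nonunits := hA
  set φ : ℚ →+* AlgebraicClosure ℚ := algebraMap ℚ (AlgebraicClosure ℚ) with hφ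
  set W₀ : WeierstrassCurve ℚ := W.map (Int.castRingHom ℚ) with hW₀
  have h2 : (2 : ℚ) ≠ 0 := two_ne_zero
  have hc4 : W₀.c₄ = ((W.c₄ : ℤ) : ℚ) := by
    rw [hW₀, WeierstrassCurve.map_c₄]
    rfl
  have hc6 : W₀.c₆ = ((W.c₆ : ℤ) : ℚ) := by
    rw [hW₀, WeierstrassCurve.map_c₆]
    rfl
  have hΔ0 : W₀.Δ = ((W.Δ : ℤ) : ℚ) := by
    rw [hW₀, WeierstrassCurve.map_Δ]
    rfl
  have hc4z : W.c₄ ≠ 0 := fun h => hpc4 (h ▸ dvd_zero _)
  have hc4ne : W₀.c₄ ≠ 0 := by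
    rw [hc4]
    exact_mod_cast hc4z
  -- `p ∤ c₆`
  have hpc6 : ¬ (p : ℤ) ∣ W.c₆ := by
    intro h
    have hrel := W.c_relation
    have h3 : (p : ℤ) ∣ W.c₄ ^ 3 := by
      have : W.c₄ ^ 3 = 1728 * W.Δ + W.c₆ ^ 2 := by rw [hrel]; ring
      rw [this]
      exact dvd_add (Dvd.dvd.mul_left hpΔ _) (Dvd.dvd.pow h two_ne_zero)
    exact hpc4 ((Nat.prime_iff_prime_int.mp hp).dvd_of_dvd_pow h3)
  have hp2' : ¬ (p : ℤ) ∣ 2 := by
    intro h
    have := (Nat.prime_dvd_prime_iff_eq hp Nat.prime_two).1 (by exact_mod_cast h)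
    exact hp2 this
  have hp4 : ¬ (p : ℤ) ∣ 4 := by
    intro h
    have h4 : (4 : ℤ) = 2 ^ 2 := by norm_num
    rw [h4] at h
    exact hp2' ((Nat.prime_iff_prime_int.mp hp).dvd_of_dvd_pow h)
  -- valuations
  have v2 : A.valuation (2 : AlgebraicClosure ℚ) = 1 := by
    have := valuation_intCast_eq_one_of_not_dvd (A := A) hp hq hp2'
    simpa using this
  have v4 : A.valuation (4 : AlgebraicClosure ℚ) = 1 := by
    have := valuation_intCast_eq_one_of_not_dvd (A := A) hp hq hp4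
    simpa using this
  have v36 : A.valuation (36 : AlgebraicClosure ℚ) ≤ 1 := by
    have := valuation_intCast_le_one A (36 : ℤ)
    rwa [Int.cast_ofNat] at this
  have vc4 : A.valuation ((W.c₄ : ℤ) : AlgebraicClosure ℚ) = 1 :=
    valuation_intCast_eq_one_of_not_dvd hp hq hpc4
  have vc6 : A.valuation ((W.c₆ : ℤ) : AlgebraicClosure ℚ) = 1 :=
    valuation_intCast_eq_one_of_not_dvd hp hq hpc6
  have vΔ : A.valuation ((W.Δ : ℤ) : AlgebraicClosure ℚ) < 1 :=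
    valuation_intCast_lt_one_of_dvd hq hpΔ
  have hΔK : ((W.Δ : ℤ) : AlgebraicClosure ℚ) ≠ 0 := by exact_mod_cast hΔ
  have hGΔ : (nodeModel W₀ (nodeX W₀)).Δ = ((W.Δ : ℤ) : ℚ) := by
    rw [nodeModel_Δ h2, hΔ0]
  have hGΔK : ((nodeModel W₀ (nodeX W₀))⁄(AlgebraicClosure ℚ)).Δ
      = ((W.Δ : ℤ) : AlgebraicClosure ℚ) := by
    show ((nodeModel W₀ (nodeX W₀)).map φ).Δ = _
    rw [WeierstrassCurve.map_Δ, hGΔ]
    exact map_intCast _ _
  refine ⟨nodeModel W₀ (nodeX W₀), -nodeX W₀, W₀.a₁ / 2, W₀.a₃ / 2, ?_, ?_, hGΔ⟩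
  · have h := isVarChange_map φ (isVarChange_nodeModel h2 W₀ (nodeX W₀))
    rw [map_one] at h
    exact h
  · refine ⟨?_, ?_, v2, ?_, ?_, ?_, ?_, ?_⟩
    · show φ (nodeModel W₀ (nodeX W₀)).a₁ = 0
      simp [nodeModel]
    · show φ (nodeModel W₀ (nodeX W₀)).a₃ = 0
      simp [nodeModel]
    · show A.valuation (φ (nodeModel W₀ (nodeX W₀)).a₂) = 1
      rw [nodeModel_a₂ h2 W₀ hc4ne, hc4, hc6, map_div₀, map_neg, map_mul, map_intCast,
        map_intCast, map_ofNat, map_div₀, Valuation.map_neg, map_mul, vc4, vc6, v4, mul_one,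
        div_one]
    · show A.valuation (φ (nodeModel W₀ (nodeX W₀)).a₄) ≤ _
      rw [hGΔK, nodeModel_a₄ h2 W₀ hc4ne, hc4, hΔ0, map_div₀, map_mul, map_neg, map_pow,
        map_intCast, map_intCast, map_ofNat, map_div₀, map_mul, Valuation.map_neg, map_pow, vc4,
        one_pow, div_one]
      calc A.valuation (36 : AlgebraicClosure ℚ) * A.valuation ((W.Δ : ℤ) : AlgebraicClosure ℚ)
          ≤ 1 * A.valuation ((W.Δ : ℤ) : AlgebraicClosure ℚ) := by gcongr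
        _ = _ := one_mul _
    · show A.valuation (φ (nodeModel W₀ (nodeX W₀)).a₆) ≤ _
      rw [hGΔK, nodeModel_a₆ h2 W₀ hc4ne, hc4, hc6, hΔ0, map_div₀, map_mul, map_pow,
        map_intCast, map_intCast, map_intCast, map_div₀, map_mul, map_pow, vc4, vc6,
        one_pow, div_one, mul_one]
    · rw [hGΔK]
      exact vΔ
    · rw [hGΔK]
      exact hΔK

end Fermat.Agent.S39.FinMult.H67
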