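import Fermat.Agent.S39.FinMult.H33_Final
import Fermat.Agent.S39.FinMult.H67_NodeArith

/-!
# S39 leaf FinMult: final statement (helper33)

`stmt_FinMult : Fermat.Agent.S39.Stmt_FinMult`, unconditional: combines
`H33.stmt_FinMult_of` (structure + Kummer core) with helper67's arithmetic leaves
`H67.stmt_NodeArith`, `H67.stmt_NodePeu`.
-/

namespace Fermat.Agent.S39.FinMult.H33

/-- **S39 leaf FinMult** (multiplicative reduction at `p`, peu ramifiée ⇒ finite at `p`). -/
theorem stmt_FinMult : Fermat.Agent.S39.Stmt_FinMult :=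
  stmt_FinMult_of Fermat.Agent.S39.FinMult.H67.stmt_NodeArith
    Fermat.Agent.S39.FinMult.H67.stmt_NodePeu

end Fermat.Agent.S39.FinMult.H33
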