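/-
S39 leaf FinMult (helper33): `Fermat.Agent.S39.Stmt_FinMult`, definitions.
Plan: NOTES/plan/L_S39_FinMult.md.

General form of S44 package C (`S44/C/*`).  For an integral model `W` with multiplicative
reduction at an odd prime `p` the node is moved to `(0, 0)` over `ℚ`:

  `y² = x³ + a x² + b x + c`,  `a = -c₆/(4 c₄)`, `b = -36 Δ/c₄²`, `c = Δ c₆/c₄³`

(the "node model": `|a| = 1`, `|b|, |c| ≤ |Δ| < 1`).  On it the function
`lam = (y - β x)/(y + β x)`, `β² = a`, is multiplicative on `E₀` up to `1 + O(Δ)`.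
The structure of the point group (component homomorphism, `E₁`, a point of order `p` outside
`E₀`) is transported from the S05 model `y² = x (x² + a' x + b')` over the algebraically closed
field, obtained by the shift `x ↦ x - e`, `e` a small root of the cubic.

Convention `|x| := A.valuation x`.
-/
import Fermat.Agent.S05.Defs
import Fermat.Agent.S05.H14_VarChange
import Fermat.Agent.S44.C.Defs2
import Fermat.Prelude.Def_WeierstrassCurve_PeuRamifiee

set_option autoImplicit false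

namespace Fermat.Agent.S39.FinMult

open WeierstrassCurve WeierstrassCurve.Affine
open Fermat.Agent.S05 (InE0 InE1 valUnit)
open Fermat.Agent.S44.C (lam)

section model

variable {L : Type*} [Field L]

/-- Hypotheses on the node model `y² = x³ + a x² + b x + c` relative to a valuation subring `A`:
`2` and `a` are units, `|b|, |c| ≤ |Δ| < 1`, `Δ ≠ 0`. -/
structure NodeHyp (A : ValuationSubring L) (W : Affine L) : Prop where
  a₁ : W.a₁ = 0
  a₃ : W.a₃ = 0
  two : A.valuation (2 : L) = 1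
  a_one : A.valuation W.a₂ = 1
  b_le : A.valuation W.a₄ ≤ A.valuation W.Δ
  c_le : A.valuation W.a₆ ≤ A.valuation W.Δ
  Δ_lt : A.valuation W.Δ < 1
  Δ_ne : W.Δ ≠ 0

/-- `|Δ|` as a unit of the value group. -/
noncomputable def dUnit {A : ValuationSubring L} {W : Affine L} (hyp : NodeHyp A W) :
    (A.ValueGroup)ˣ :=
  Units.mk0 (A.valuation W.Δ) (by simpa using hyp.Δ_ne)

/-- The component group `Γˣ / ⟨|Δ|⟩` of the node model. -/
abbrev NodeComp {A : ValuationSubring L} {W : Affine L} (hyp : NodeHyp A W) : Type _ :=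
  (A.ValueGroup)ˣ ⧸ Subgroup.zpowers (dUnit hyp)

end model

/-- **NODE-M1** (component homomorphism of the node model; transport of `S05.M1`). -/
def Stmt_NodeM1 : Prop :=
  ∀ (L : Type) [Field L] [DecidableEq L] [IsAlgClosed L] (A : ValuationSubring L) (W : Affine L)
    (hyp : NodeHyp A W) (β : L), β ^ 2 = W.a₂ →
  ∃ φ : W.Point →+ Additive (NodeComp hyp),
    (∀ P, φ P = 0 ↔ InE0 A P) ∧
    (∀ (x y : L) (h : W.Nonsingular x y) (hx0 : x ≠ 0),
      A.valuation W.Δ < A.valuation x ^ 2 → A.valuation x < 1 →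
      A.valuation (y - β * x) < A.valuation x →
      φ (.some x y h) = Additive.ofMul (QuotientGroup.mk (valUnit A x hx0)))

/-- **NODE-E1**: `E₁` is a subgroup of the node model. -/
def Stmt_NodeE1 : Prop :=
  ∀ (L : Type) [Field L] [DecidableEq L] [IsAlgClosed L] (A : ValuationSubring L) (W : Affine L),
    NodeHyp A W → ∀ P Q : W.Point, InE1 A P → InE1 A Q → InE1 A (P + Q)

/-- **NODE-ROOT**: a point of order `p` of the node model outside `E₀`. -/
def Stmt_NodeRoot : Prop :=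
  ∀ (L : Type) [Field L] [DecidableEq L] [IsAlgClosed L] [CharZero L] (A : ValuationSubring L)
    (p : ℕ), p.Prime → p ≠ 2 → A.valuation (p : L) < 1 →
  ∀ (W : Affine L), NodeHyp A W →
    ∃ (x y : L) (h : W.Nonsingular x y), p • Point.some x y h = 0 ∧ A.valuation x < 1

/-- **NODE-M** (multiplicativity of `lam` on `E₀` of the node model): `lam` is a unit on `E₀`,
`lam (-P) = (lam P)⁻¹`, `|lam P - 1|² |x(P)| = 1` on `E₀`, and
`|lam (P + Q) - lam P · lam Q| ≤ |Δ| · |lam Q - 1|` for `P, Q, P + Q ∈ E₀`. -/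
def Stmt_NodeM : Prop :=
  ∀ (L : Type) [Field L] [DecidableEq L] (A : ValuationSubring L) (W : Affine L),
    NodeHyp A W → ∀ β : L, β ^ 2 = W.a₂ →
    (∀ P : W.Point, InE0 A P → A.valuation (lam β P) = 1) ∧
    (∀ P : W.Point, lam β (-P) = (lam β P)⁻¹) ∧
    (∀ (x y : L) (h : W.Nonsingular x y), 1 ≤ A.valuation x →
      A.valuation (lam β (Point.some x y h) - 1) ^ 2 * A.valuation x = 1) ∧
    (∀ P Q : W.Point, InE0 A P → InE0 A Q → InE0 A (P + Q) →
      A.valuation (lam β (P + Q) - lam β P * lam β Q) ≤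
        A.valuation W.Δ * A.valuation (lam β Q - 1))

/-- **NODE-L4** (no small `p`-torsion in `E₁`): if `|Δ| < |p| < 1`, `S ∈ E₁`, `p S = O` and
`|lam S - 1| ^ (p - 1) < |p|` then `S = O`. -/
def Stmt_NodeL4 : Prop :=
  ∀ (L : Type) [Field L] [DecidableEq L] [IsAlgClosed L] (A : ValuationSubring L) (W : Affine L),
    NodeHyp A W → ∀ β : L, β ^ 2 = W.a₂ →
    ∀ p : ℕ, p.Prime → A.valuation (p : L) < 1 → A.valuation W.Δ < A.valuation (p : L) →
    ∀ S : W.Point, InE1 A S → p • S = 0 →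
      A.valuation (lam β S - 1) ^ (p - 1) < A.valuation (p : L) → S = 0

/-- **NODE-ARITH** (the node model of an integral model with multiplicative reduction at an odd
prime `p`): a curve `G` over `ℚ`, isomorphic to `W` by a change of variables with `u = 1`, which
is a node model at every place over `p`, with the same discriminant.
[`x = X - x₀`, `y = Y + (a₁ X + a₃)/2`, `x₀ = (18 b₆ - b₂ b₄)/c₄`; then `a = -c₆/(4 c₄)`,
`b = -36 Δ/c₄²`, `c = Δ c₆/c₄³`, and `c₆² = c₄³ - 1728 Δ` is prime to `p`.] -/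
def Stmt_NodeArith : Prop :=
  ∀ (W : WeierstrassCurve ℤ), W.Δ ≠ 0 → ∀ (p : ℕ), p.Prime → p ≠ 2 →
    (p : ℤ) ∣ W.Δ → ¬ (p : ℤ) ∣ W.c₄ →
    ∀ A : ValuationSubring (AlgebraicClosure ℚ), A.LiesOverPrime p →
    ∃ (G : Affine ℚ) (r s t : ℚ),
      Fermat.Agent.S05.H14.IsVarChange
        ((W.map (Int.castRingHom ℚ)).toAffine⁄(AlgebraicClosure ℚ)) (G⁄(AlgebraicClosure ℚ))
        (1 : AlgebraicClosure ℚ) (algebraMap ℚ (AlgebraicClosure ℚ) r)
        (algebraMap ℚ (AlgebraicClosure ℚ) s) (algebraMap ℚ (AlgebraicClosure ℚ) t) ∧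
      NodeHyp A (G⁄(AlgebraicClosure ℚ)) ∧
      G.Δ = ((W.Δ : ℤ) : ℚ)

/-- **NODE-PEU** (arithmetic of `p ∣ v_p(Δ)`): `|Δ| = |c₀| ^ p` for a rational `c₀`, and
`|Δ| ≤ |p|²`. -/
def Stmt_NodePeu : Prop :=
  ∀ (W : WeierstrassCurve ℤ), W.Δ ≠ 0 → ∀ (p : ℕ), p.Prime → p ≠ 2 → (p : ℤ) ∣ W.Δ →
    (W.map (Int.castRingHom ℚ)).IsPeuRamifieeAt p p →
    ∀ A : ValuationSubring (AlgebraicClosure ℚ), A.LiesOverPrime p →
    ∃ c₀ : ℚ,
      A.valuation (algebraMap ℚ (AlgebraicClosure ℚ) c₀) ^ p =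
        A.valuation (((W.Δ : ℤ) : ℚ) : AlgebraicClosure ℚ) ∧
      A.valuation (((W.Δ : ℤ) : ℚ) : AlgebraicClosure ℚ) ≤
        A.valuation ((p : ℕ) : AlgebraicClosure ℚ) ^ 2

end Fermat.Agent.S39.FinMult
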