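/-
S39 leaf FinMult (helper33), CORE: the core theorems on the node model
`y² = x³ + a x² + b x + c` over `ℚ`, `|b|, |c| ≤ |Δ| = |c₀| ^ p`:

* `node_core_E1`  : for an inertia-like `σ` and `P ∈ E[p]`, `σ P - P ∈ E₁`;
* `node_core_peu` : if moreover `|Δ| ≤ |p|²` and `σ` fixes the `p`-th roots of unity and the
  `p`-th roots of `1 + p`, then `σ` fixes `E[p]` pointwise.

Adapted from `S44/C/H33_Core.lean`.  Plan: NOTES/plan/L_S39_FinMult.md.
-/
import Fermat.Agent.S39.FinMult.H33_L4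
import Fermat.Agent.S44.C.H33_Twist
import Fermat.Agent.S44.C.H19_RatLim
import Fermat.Agent.S44.C.H01_Val
import Fermat.Agent.S05.H15_Val

set_option autoImplicit false

namespace Fermat.Agent.S39.FinMult.H33

open WeierstrassCurve WeierstrassCurve.Affine
open Fermat.Agent.S05 (InE0 InE1 valUnit)
open Fermat.Agent.S44.C (lam lam_zero lam_some Stmt_V1 Stmt_V3 Stmt_F1 Stmt_F2 Stmt_F3 Stmt_F4)
open Fermat.Agent.S44.C.H33 (InT InT_zero InT_neg InT_add InT_nsmul lam_mem_of_InT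
  smul_eq_of_InT lam_smul)

section branch

variable {L : Type*} [Field L] [IsAlgClosed L]

/-- A point of the twist subgroup on the `+`-branch above `x₀ ∈ F` with `|Δ| < |x₀|²`,
`|x₀| < 1` (`F` closed under square roots of elements `≡ 1`). -/
lemma exists_branch_point_InT_node {A : ValuationSubring L} {W : Affine L} (hyp : NodeHyp A W)
    (β : L) (hβ : β ^ 2 = W.a₂) (F : Subfield L)
    (ha : W.a₂ ∈ F) (hbF : W.a₄ ∈ F) (hcF : W.a₆ ∈ F)
    (hsqrt : ∀ d η : L, d ∈ F → A.valuation (d - 1) < 1 → η ^ 2 = d →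
      A.valuation (η - 1) < 1 → η ∈ F)
    (x₀ : L) (hx₀F : x₀ ∈ F) (hx1 : A.valuation x₀ < 1)
    (hxb : A.valuation W.Δ < A.valuation x₀ ^ 2) :
    ∃ (y₀ : L) (h : W.Nonsingular x₀ y₀), A.valuation (y₀ - β * x₀) < A.valuation x₀ ∧
      InT F β (Point.some x₀ y₀ h) := by
  have hx0 : x₀ ≠ 0 := by
    rintro rfl
    rw [map_zero, zero_pow two_ne_zero] at hxb
    exact not_lt_zero hxb
  have hvx0 : A.valuation x₀ ≠ 0 := by simpa using hx0
  have hvx0' : 0 < A.valuation x₀ := zero_lt_iff.2 hvx0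
  have hva := hyp.a_one
  have ha0 : W.a₂ ≠ 0 := by
    intro h
    rw [h, map_zero] at hva
    exact zero_ne_one hva
  have hvβ : A.valuation β = 1 := val_beta hyp hβ
  have hx2 : A.valuation x₀ ^ 2 ≤ A.valuation x₀ := by
    rw [sq]
    exact mul_le_of_le_one_right' hx1.le
  -- `d = 1 + (x₀ + b / x₀ + c / x₀²) / a`
  set d : L := 1 + (x₀ + W.a₄ / x₀ + W.a₆ / x₀ ^ 2) / W.a₂ with hd
  have hdF : d ∈ F :=
    F.add_mem F.one_mem (F.div_mem (F.add_mem (F.add_mem hx₀F (F.div_mem hbF hx₀F))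
      (F.div_mem hcF (F.pow_mem hx₀F 2))) ha)
  have hd1 : A.valuation (d - 1) < 1 := by
    have e : d - 1 = (x₀ + W.a₄ / x₀ + W.a₆ / x₀ ^ 2) / W.a₂ := by rw [hd]; ring
    rw [e, map_div₀, hva, div_one]
    refine Valuation.map_add_lt _ (Valuation.map_add_lt _ hx1 ?_) ?_
    · rw [map_div₀, div_lt_one₀ hvx0']
      exact lt_of_le_of_lt hyp.b_le (lt_of_lt_of_le hxb hx2)
    · rw [map_div₀, map_pow, div_lt_one₀ (pow_pos hvx0' 2)]
      exact lt_of_le_of_lt hyp.c_le hxb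
  obtain ⟨η', hη'⟩ := IsAlgClosed.exists_pow_nat_eq d (n := 2) (by norm_num)
  obtain ⟨η, hη, hη1⟩ : ∃ η : L, η ^ 2 = d ∧ A.valuation (η - 1) < 1 := by
    have hprod : (η' - 1) * (η' + 1) = d - 1 := by rw [← hη']; ring
    by_cases h1 : A.valuation (η' - 1) < 1
    · exact ⟨η', hη', h1⟩
    · refine ⟨-η', by rw [neg_sq, hη'], ?_⟩
      have h2 : A.valuation (η' + 1) < 1 := by
        by_contra h2
        push Not at h1 h2
        have : (1 : A.ValueGroup) ≤ A.valuation (η' - 1) * A.valuation (η' + 1) := by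
          calc (1 : A.ValueGroup) = 1 * 1 := (one_mul 1).symm
            _ ≤ A.valuation (η' - 1) * A.valuation (η' + 1) := mul_le_mul' h1 h2
        rw [← map_mul, hprod] at this
        exact absurd hd1 (not_lt.2 this)
      have : -η' - 1 = -(η' + 1) := by ring
      rw [this, Valuation.map_neg]
      exact h2
  have hηF : η ∈ F := hsqrt d η hdF hd1 hη hη1
  have hy₀ : (β * (x₀ * η)) ^ 2 = x₀ ^ 3 + W.a₂ * x₀ ^ 2 + W.a₄ * x₀ + W.a₆ := by
    rw [mul_pow, mul_pow, hβ, hη, hd]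
    field_simp
    ring
  have hns : W.Nonsingular x₀ (β * (x₀ * η)) :=
    (equation_iff_nonsingular_of_Δ_ne_zero hyp.Δ_ne).1
      ((node_equation_iff hyp.a₁ hyp.a₃ x₀ _).2 hy₀)
  refine ⟨β * (x₀ * η), hns, ?_, hx₀F, x₀ * η, F.mul_mem hx₀F hηF, rfl⟩
  have e : β * (x₀ * η) - β * x₀ = β * x₀ * (η - 1) := by ring
  rw [e, map_mul, map_mul, hvβ, one_mul]
  calc A.valuation x₀ * A.valuation (η - 1) < A.valuation x₀ * 1 :=
        mul_lt_mul_of_pos_left hη1 hvx0'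
    _ = A.valuation x₀ := mul_one _

end branch

section core

variable {L : Type} [Field L] [DecidableEq L] [IsAlgClosed L] [CharZero L] [Algebra ℚ L]

omit [IsAlgClosed L] [CharZero L] in
/-- A valuation preserving automorphism preserves `E₀`. -/
lemma inE0_smul (A : ValuationSubring L) (W' : Affine ℚ) (σ : L ≃ₐ[ℚ] L)
    (hσv : ∀ x, A.valuation (σ x) = A.valuation x) {Q : (W'⁄L).Point} (hQ : InE0 A Q) :
    InE0 A (σ • Q) := by
  rcases Q with _ | ⟨x, y, h⟩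
  · exact hQ
  · show 1 ≤ A.valuation (σ x)
    rw [hσv]
    exact hQ

omit [CharZero L] in
/-- **F2 for the node model**: an inertia-like automorphism fixing `β` moves the points of `E₀`
inside their `E₁`-cosets. -/
theorem node_F2 (A : ValuationSubring L) (W' : Affine ℚ) (hyp : NodeHyp A (W'⁄L))
    (β : L) (hβ : β ^ 2 = (W'⁄L).a₂)
    (σ : L ≃ₐ[ℚ] L) (hσv : ∀ x, A.valuation (σ x) = A.valuation x)
    (hσr : ∀ x, A.valuation x ≤ 1 → A.valuation (σ x - x) < 1) (hσβ : σ β = β)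
    (Q : (W'⁄L).Point) (hQ : InE0 A Q) : InE1 A (σ • Q - Q) := by
  obtain ⟨φ, hker, -⟩ := stmt_NodeM1 L A (W'⁄L) hyp β hβ
  have hσQ0 : InE0 A (σ • Q) := inE0_smul A W' σ hσv hQ
  obtain ⟨S, hSdef⟩ : ∃ S, S = σ • Q - Q := ⟨_, rfl⟩
  rw [← hSdef]
  have hS0 : InE0 A S := by
    rw [← hker, hSdef, map_sub, (hker _).2 hσQ0, (hker _).2 hQ, sub_zero]
  have hQS : Q + S = σ • Q := by rw [hSdef]; abel
  have h5 := val_lam_add hyp hβ Q S hQ hS0 (by rw [hQS]; exact hσQ0)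
  rw [hQS, lam_smul W' σ hσβ Q] at h5
  obtain ⟨g, hgdef⟩ : ∃ g, g = lam β Q := ⟨_, rfl⟩
  rw [← hgdef] at h5
  have hg1 : A.valuation g = 1 := by rw [hgdef]; exact val_lam_eq_one hyp hβ Q hQ
  have hres : A.valuation (σ g - g) < 1 := hσr g hg1.le
  apply inE1_of_val_lam_sub_one_lt hyp hβ S hS0
  by_contra hcon
  push Not at hcon
  have hpos : 0 < A.valuation (lam β S - 1) := lt_of_lt_of_le zero_lt_one hcon
  have e : g * (lam β S - 1) = -(σ g - g * lam β S) + (σ g - g) := by ring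
  have h6 : A.valuation (σ g - g * lam β S) < A.valuation (lam β S - 1) := by
    refine lt_of_le_of_lt h5 ?_
    calc A.valuation (W'⁄L).Δ * A.valuation (lam β S - 1) < 1 * A.valuation (lam β S - 1) :=
          mul_lt_mul_of_pos_right hyp.Δ_lt hpos
      _ = A.valuation (lam β S - 1) := one_mul _
  have h7 : A.valuation (σ g - g) < A.valuation (lam β S - 1) := lt_of_lt_of_le hres hcon
  have h8 : A.valuation (g * (lam β S - 1)) < A.valuation (lam β S - 1) := by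
    rw [e]
    exact Valuation.map_add_lt _ (by rw [Valuation.map_neg]; exact h6) h7
  rw [map_mul, hg1, one_mul] at h8
  exact lt_irrefl _ h8

omit [CharZero L] in
/-- In every component of order dividing `p` there is a point of the twist subgroup `T`. -/
theorem exists_InT_same_component_node
    (A : ValuationSubring L) (W' : Affine ℚ) (hyp : NodeHyp A (W'⁄L))
    (p : ℕ) (hodd : Odd p)
    (c : ℚ) (hc : A.valuation (algebraMap ℚ L c) ^ p = A.valuation (W'⁄L).Δ)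
    (β : L) (hβ : β ^ 2 = (W'⁄L).a₂) (F : Subfield L) (hQF : ∀ r : ℚ, algebraMap ℚ L r ∈ F)
    (hsqrt : ∀ d η : L, d ∈ F → A.valuation (d - 1) < 1 → η ^ 2 = d →
      A.valuation (η - 1) < 1 → η ∈ F)
    (φ : (W'⁄L).Point →+ Additive (NodeComp hyp))
    (hφ : ∀ (x y : L) (h : (W'⁄L).Nonsingular x y) (hx0 : x ≠ 0),
      A.valuation (W'⁄L).Δ < A.valuation x ^ 2 → A.valuation x < 1 →
      A.valuation (y - β * x) < A.valuation x →
      φ (.some x y h) = Additive.ofMul (QuotientGroup.mk (valUnit A x hx0)))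
    (P : (W'⁄L).Point) (hP : p • P = 0) :
    ∃ R₀ : (W'⁄L).Point, InT F β R₀ ∧ φ R₀ = φ P := by
  have hp0 : p ≠ 0 := by
    rintro rfl
    exact absurd hodd (by decide)
  have haF : (W'⁄L).a₂ ∈ F := hQF W'.a₂
  have hbF : (W'⁄L).a₄ ∈ F := hQF W'.a₄
  have hcF : (W'⁄L).a₆ ∈ F := hQF W'.a₆
  have hvΔ0 : A.valuation (W'⁄L).Δ ≠ 0 := by simpa using hyp.Δ_ne
  have hc0 : algebraMap ℚ L c ≠ 0 := by
    intro h
    rw [h, _root_.map_zero, zero_pow hp0] at hc
    exact hvΔ0 hc.symm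
  have hvc0 : A.valuation (algebraMap ℚ L c) ≠ 0 := by simpa using hc0
  have hvc1 : A.valuation (algebraMap ℚ L c) < 1 := by
    by_contra h
    push Not at h
    have h1 : 1 ≤ A.valuation (algebraMap ℚ L c) ^ p := one_le_pow₀ h
    rw [hc] at h1
    exact absurd h1 (not_le.2 hyp.Δ_lt)
  set cU : (A.ValueGroup)ˣ := valUnit A (algebraMap ℚ L c) hc0 with hcU
  have hcUp : cU ^ p = dUnit hyp := by
    apply Units.ext
    simp only [hcU, valUnit, dUnit, Units.val_pow_eq_pow_val, Units.val_mk0]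
    exact hc
  -- small case: `0 < r`, `2 r < p`
  have small : ∀ r : ℕ, 0 < r → 2 * r < p → ∃ P₀ : (W'⁄L).Point, InT F β P₀ ∧
      φ P₀ = Additive.ofMul (QuotientGroup.mk (cU ^ r)) := by
    intro r hr0 hr
    have hx1 : A.valuation ((algebraMap ℚ L c) ^ r) < 1 := by
      rw [map_pow]
      exact pow_lt_one₀ zero_le hvc1 hr0.ne'
    have hxb : A.valuation (W'⁄L).Δ < A.valuation ((algebraMap ℚ L c) ^ r) ^ 2 := by
      rw [map_pow, ← pow_mul, mul_comm r 2, ← hc]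
      exact pow_lt_pow_right_of_lt_one₀ (zero_lt_iff.2 hvc0) hvc1 hr
    have hxF : (algebraMap ℚ L c) ^ r ∈ F := F.pow_mem (hQF c) r
    obtain ⟨y₀, hns, hbr, hT⟩ := exists_branch_point_InT_node hyp β hβ F haF hbF hcF hsqrt
      _ hxF hx1 hxb
    refine ⟨Point.some _ _ hns, hT, ?_⟩
    rw [hφ _ _ hns (pow_ne_zero _ hc0) hxb hx1 hbr]
    congr 2
    apply Units.ext
    simp [hcU, valUnit, map_pow]
  -- all residues `r < p`
  have allr : ∀ r : ℕ, r < p → ∃ P₀ : (W'⁄L).Point, InT F β P₀ ∧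
      φ P₀ = Additive.ofMul (QuotientGroup.mk (cU ^ r)) := by
    intro r hr
    rcases Nat.eq_zero_or_pos r with rfl | hr0
    · exact ⟨0, InT_zero F β, by simp⟩
    rcases lt_or_gt_of_ne (show 2 * r ≠ p from fun h => by
        obtain ⟨k, hk⟩ := hodd; omega) with h2 | h2
    · exact small r hr0 h2
    · obtain ⟨P₀, hfix, hcomp⟩ := small (p - r) (by omega) (by omega)
      refine ⟨-P₀, InT_neg hyp.a₁ hyp.a₃ hfix, ?_⟩
      rw [map_neg, hcomp, ← ofMul_inv, ← QuotientGroup.mk_inv]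
      congr 1
      rw [QuotientGroup.eq]
      rw [inv_inv, ← pow_add, Nat.sub_add_cancel hr.le, hcUp]
      exact Subgroup.mem_zpowers _
  -- the component of `P`
  obtain ⟨g, hg⟩ := QuotientGroup.mk_surjective (Additive.toMul (φ P))
  have hgp : g ^ p ∈ Subgroup.zpowers (dUnit hyp) := by
    rw [← QuotientGroup.eq_one_iff, QuotientGroup.mk_pow, hg, ← toMul_nsmul, ← map_nsmul, hP,
      _root_.map_zero, toMul_zero]
  obtain ⟨k, hk⟩ := Subgroup.mem_zpowers_iff.1 hgp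
  have hgk : g = cU ^ k := by
    have : g ^ p = (cU ^ k) ^ p := by
      rw [← hk, ← hcUp, ← zpow_natCast (cU ^ k) p, ← zpow_natCast cU p, ← zpow_mul, ← zpow_mul,
        mul_comm]
    exact pow_left_injective hp0 this
  have hpZ : (p : ℤ) ≠ 0 := by exact_mod_cast hp0
  obtain ⟨P₀, hfix, hcomp⟩ := allr (k % (p : ℤ)).toNat (by
    have := Int.emod_lt_of_pos k (show (0 : ℤ) < p by omega)
    have := Int.emod_nonneg k hpZ
    omega)
  refine ⟨P₀, hfix, ?_⟩
  rw [hcomp]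
  apply Additive.toMul.injective
  rw [toMul_ofMul, ← hg, hgk, QuotientGroup.eq]
  have hkr : cU ^ k = (dUnit hyp) ^ (k / (p : ℤ)) * cU ^ (k % (p : ℤ)).toNat := by
    rw [← hcUp, ← zpow_natCast cU p, ← zpow_mul, ← zpow_natCast cU (k % (p : ℤ)).toNat,
      Int.toNat_of_nonneg (Int.emod_nonneg k hpZ), ← zpow_add, Int.mul_ediv_add_emod]
  rw [hkr, mul_comm, mul_inv_cancel_right]
  exact Subgroup.zpow_mem _ (Subgroup.mem_zpowers _) _

/-- The common set-up of the two core theorems: `β`, the field `F` of `p`-adic limits of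
rationals, and the decomposition `P = Q + R₀` with `Q ∈ E₀`, `R₀ ∈ T`. -/
theorem node_setup (halg : Algebra.IsAlgebraic ℚ L)
    (A : ValuationSubring L) (W' : Affine ℚ) (hyp : NodeHyp A (W'⁄L))
    (p : ℕ) (hp : p.Prime) (hp2 : p ≠ 2) (hpA : A.valuation (p : L) < 1)
    (c : ℚ) (hc : A.valuation (algebraMap ℚ L c) ^ p = A.valuation (W'⁄L).Δ)
    (σ : L ≃ₐ[ℚ] L) (hσv : ∀ x, A.valuation (σ x) = A.valuation x)
    (hσr : ∀ x, A.valuation x ≤ 1 → A.valuation (σ x - x) < 1)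
    (P : (W'⁄L).Point) (hP : p • P = 0) :
    ∃ (β : L) (F : Subfield L) (R₀ : (W'⁄L).Point), β ^ 2 = (W'⁄L).a₂ ∧ σ β = β ∧
      (∀ z ∈ F, σ z = z) ∧ (∀ z : L, z ∈ F ↔ Fermat.Agent.S44.C.IsRatLim A p z) ∧
      (W'⁄L).a₂ ∈ F ∧ (W'⁄L).a₄ ∈ F ∧ InT F β R₀ ∧ InE0 A (P - R₀) := by
  obtain ⟨β, hβ⟩ := IsAlgClosed.exists_pow_nat_eq ((W'⁄L).a₂) (n := 2) (by norm_num)
  have hvβ : A.valuation β = 1 := val_beta hyp hβ
  have hσβ : σ β = β := by
    have hsq : (σ β) ^ 2 = β ^ 2 := by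
      rw [← map_pow, hβ]
      exact σ.commutes _
    rcases eq_or_eq_neg_of_sq_eq_sq _ _ hsq with h | h
    · exact h
    · exfalso
      have := hσr β hvβ.le
      rw [h] at this
      have e : -β - β = -(2 * β) := by ring
      rw [e, Valuation.map_neg, map_mul, hyp.two, one_mul, hvβ] at this
      exact lt_irrefl _ this
  obtain ⟨F, hF⟩ := Fermat.Agent.S44.C.H19.stmt_F1 L halg A p hp hpA
  have hQF : ∀ r : ℚ, algebraMap ℚ L r ∈ F := fun r =>
    (hF _).2 (fun k => ⟨r, by rw [sub_self, map_zero]; exact zero_le⟩)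
  have hσF : ∀ z ∈ F, σ z = z := fun z hz =>
    Fermat.Agent.S44.C.H19.stmt_F2 L halg A p hp hpA σ hσv z ((hF z).1 hz)
  have hsqrt : ∀ d η : L, d ∈ F → A.valuation (d - 1) < 1 → η ^ 2 = d →
      A.valuation (η - 1) < 1 → η ∈ F := fun d η hd h1 h2 h3 =>
    (hF η).2 (Fermat.Agent.S44.C.H19.stmt_F3 L A p hp hp2 hpA d η ((hF d).1 hd) h1 h2 h3)
  obtain ⟨φ, hker, hφ⟩ := stmt_NodeM1 L A (W'⁄L) hyp β hβ
  obtain ⟨R₀, hR₀T, hR₀φ⟩ := exists_InT_same_component_node A W' hyp p (hp.odd_of_ne_two hp2)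
    c hc β hβ F hQF hsqrt φ hφ P hP
  refine ⟨β, F, R₀, hβ, hσβ, hσF, hF, hQF W'.a₂, hQF W'.a₄, hR₀T, ?_⟩
  rw [← hker, map_sub, hR₀φ, sub_self]

/-- **Core theorem 1 on the node model**: inertia acts trivially on `E[p] / (E[p] ∩ E₁)`. -/
theorem node_core_E1 (halg : Algebra.IsAlgebraic ℚ L)
    (A : ValuationSubring L) (W' : Affine ℚ) (hyp : NodeHyp A (W'⁄L))
    (p : ℕ) (hp : p.Prime) (hp2 : p ≠ 2) (hpA : A.valuation (p : L) < 1)
    (c : ℚ) (hc : A.valuation (algebraMap ℚ L c) ^ p = A.valuation (W'⁄L).Δ)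
    (σ : L ≃ₐ[ℚ] L) (hσv : ∀ x, A.valuation (σ x) = A.valuation x)
    (hσr : ∀ x, A.valuation x ≤ 1 → A.valuation (σ x - x) < 1)
    (P : (W'⁄L).Point) (hP : p • P = 0) : InE1 A (σ • P - P) := by
  obtain ⟨β, F, R₀, hβ, hσβ, hσF, -, -, -, hR₀T, hQ0⟩ :=
    node_setup halg A W' hyp p hp hp2 hpA c hc σ hσv hσr P hP
  have hσR₀ : σ • R₀ = R₀ := smul_eq_of_InT W' σ hσF hσβ hR₀T
  have h := node_F2 A W' hyp β hβ σ hσv hσr hσβ (P - R₀) hQ0
  have e1 : σ • (P - R₀) = σ • P - σ • R₀ := smul_sub σ P R₀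
  have e : σ • (P - R₀) - (P - R₀) = σ • P - P := by
    rw [e1, hσR₀]; abel
  rw [e] at h
  exact h

/-- **Core theorem 2 on the node model** (peu ramifié with `u = 1 + p`). -/
theorem node_core_peu (halg : Algebra.IsAlgebraic ℚ L)
    (A : ValuationSubring L) (W' : Affine ℚ) (hyp : NodeHyp A (W'⁄L))
    (p : ℕ) (hp : p.Prime) (hp2 : p ≠ 2) (hpA : A.valuation (p : L) < 1)
    (hΔ2 : A.valuation (W'⁄L).Δ ≤ A.valuation (p : L) ^ 2)
    (c : ℚ) (hc : A.valuation (algebraMap ℚ L c) ^ p = A.valuation (W'⁄L).Δ)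
    (σ : L ≃ₐ[ℚ] L) (hσv : ∀ x, A.valuation (σ x) = A.valuation x)
    (hσr : ∀ x, A.valuation x ≤ 1 → A.valuation (σ x - x) < 1)
    (hσζ : ∀ ζ : L, ζ ^ p = 1 → σ ζ = ζ)
    (hσω : ∀ z : L, z ^ p = 1 + (p : L) → σ z = z)
    (P : (W'⁄L).Point) (hP : p • P = 0) : σ • P = P := by
  -- basic facts on `p`
  have hp0 : (p : L) ≠ 0 := Nat.cast_ne_zero.2 hp.ne_zero
  have hvp0 : A.valuation (p : L) ≠ 0 := by simpa using hp0
  have hvp_pos : 0 < A.valuation (p : L) := zero_lt_iff.2 hvp0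
  have hvp2 : A.valuation (p : L) ^ 2 < A.valuation (p : L) := by
    rw [pow_two]
    calc A.valuation (p : L) * A.valuation (p : L) < A.valuation (p : L) * 1 :=
          mul_lt_mul_of_pos_left hpA hvp_pos
      _ = A.valuation (p : L) := mul_one _
  have hpnu : (p : L) ∈ A.nonunits := (ValuationSubring.mem_nonunits_iff A).2 hpA
  have hbp : A.valuation (W'⁄L).Δ < A.valuation (p : L) := lt_of_le_of_lt hΔ2 hvp2
  -- the set-up
  obtain ⟨β, F, R₀, hβ, hσβ, hσF, hF, haF, hbF, hR₀T, hQ0'⟩ :=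
    node_setup halg A W' hyp p hp hp2 hpA c hc σ hσv hσr P hP
  have hvβ : A.valuation β = 1 := val_beta hyp hβ
  have hβ0 : β ≠ 0 := by
    intro h
    rw [h, map_zero] at hvβ
    exact zero_ne_one hvβ
  obtain ⟨φ, hker, -⟩ := stmt_NodeM1 L A (W'⁄L) hyp β hβ
  have hσR₀ : σ • R₀ = R₀ := smul_eq_of_InT W' σ hσF hσβ hR₀T
  -- `Q = P - R₀ ∈ E₀`
  obtain ⟨Q, hQdef⟩ : ∃ Q, Q = P - R₀ := ⟨_, rfl⟩
  have hPQ : P = Q + R₀ := by rw [hQdef]; abel
  have hQ0 : InE0 A Q := by rw [hQdef]; exact hQ0'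
  have hkQ0 : ∀ k : ℕ, InE0 A (k • Q) := fun k => by
    rw [← hker, map_nsmul, (hker Q).2 hQ0, nsmul_zero]
  have hpQ : p • Q = -(p • R₀) := by rw [hQdef, smul_sub, hP, zero_sub]
  have hpQT : InT F β (p • Q) := by
    rw [hpQ]
    exact InT_neg hyp.a₁ hyp.a₃ (InT_nsmul hyp.a₁ hyp.a₃ hβ hβ0 haF hbF hR₀T p)
  have hσpQ : σ • (p • Q) = p • Q := smul_eq_of_InT W' σ hσF hσβ hpQT
  -- `g = lam Q`, `w = lam (p Q)`
  obtain ⟨g, hgdef⟩ : ∃ g, g = lam β Q := ⟨_, rfl⟩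
  have hg1 : A.valuation g = 1 := by rw [hgdef]; exact val_lam_eq_one hyp hβ Q hQ0
  have hg0 : g ≠ 0 := by
    intro h
    rw [h, map_zero] at hg1
    exact zero_ne_one hg1
  obtain ⟨w, hwdef⟩ : ∃ w, w = lam β (p • Q) := ⟨_, rfl⟩
  have hwF : w ∈ F := by rw [hwdef]; exact lam_mem_of_InT hβ0 hpQT
  have hw1 : A.valuation w = 1 := by rw [hwdef]; exact val_lam_eq_one hyp hβ _ (hkQ0 p)
  have hgsub : A.valuation (g - 1) ≤ 1 :=
    (A.valuation.map_sub _ _).trans (max_le hg1.le (by rw [map_one]))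
  have hnsmul : ∀ k : ℕ, A.valuation (lam β (k • Q) - g ^ k) ≤ A.valuation (W'⁄L).Δ := by
    intro k
    induction k with
    | zero => rw [zero_smul, lam_zero, pow_zero, sub_self, map_zero]; exact zero_le
    | succ k ih =>
      rw [succ_nsmul, pow_succ]
      have hk1 : InE0 A (k • Q + Q) := by
        have := hkQ0 (k + 1)
        rw [succ_nsmul] at this
        exact this
      have h1 := val_lam_add hyp hβ (k • Q) Q (hkQ0 k) hQ0 hk1
      rw [← hgdef] at h1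
      have h3 : A.valuation (lam β (k • Q + Q) - lam β (k • Q) * g) ≤ A.valuation (W'⁄L).Δ :=
        h1.trans (mul_le_of_le_one_right' hgsub)
      have e : lam β (k • Q + Q) - g ^ k * g =
          (lam β (k • Q + Q) - lam β (k • Q) * g) + (lam β (k • Q) - g ^ k) * g := by ring
      rw [e]
      refine (A.valuation.map_add _ _).trans (max_le h3 ?_)
      rw [map_mul, hg1, mul_one]
      exact ih
  have hgw : A.valuation (w - g ^ p) ≤ A.valuation (p : L) ^ 2 := by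
    rw [hwdef]
    exact (hnsmul p).trans hΔ2
  -- `w ≡ t ^ p (1 + p) ^ n` mod `p²`
  obtain ⟨t, htp, htw⟩ := Fermat.Agent.S44.C.H19.stmt_F4 L A p hp hpA w ((hF w).1 hwF) hw1
  obtain ⟨n, hn⟩ := Fermat.Agent.S44.C.H01.stmt_V3 p hp t htp
  have ht1 : A.valuation (t : L) = 1 :=
    Fermat.Agent.S05.H15.valuation_intCast_eq_one_of_not_dvd hp hpnu htp
  have htn : A.valuation ((t : L) - (t : L) ^ p * (1 + (p : L)) ^ n) ≤
      A.valuation (p : L) ^ 2 := by
    obtain ⟨k, hk⟩ := hn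
    have e : (t : L) - (t : L) ^ p * (1 + (p : L)) ^ n = (p : L) ^ 2 * (k : L) := by
      have := congrArg (Int.cast : ℤ → L) hk
      push_cast at this
      exact this
    rw [e, map_mul, map_pow]
    exact mul_le_of_le_one_right' (Fermat.Agent.S05.H15.valuation_intCast_le_one A k)
  obtain ⟨ω, hω⟩ := IsAlgClosed.exists_pow_nat_eq (1 + (p : L)) (n := p) hp.pos
  have hσω' : σ ω = ω := hσω ω hω
  have hv1p : A.valuation (1 + (p : L)) = 1 := by
    rw [Valuation.map_add_eq_of_lt_left _ (by rw [map_one]; exact hpA), map_one]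
  have hvω : A.valuation ω = 1 := by
    have : A.valuation ω ^ p = 1 := by rw [← map_pow, hω, hv1p]
    exact (pow_eq_one_iff_left hp.ne_zero).mp this
  obtain ⟨g₀, hg₀def⟩ : ∃ g₀, g₀ = (t : L) * ω ^ n := ⟨_, rfl⟩
  have hg₀p : g₀ ^ p = (t : L) ^ p * (1 + (p : L)) ^ n := by
    rw [hg₀def, mul_pow, ← pow_mul, mul_comm n p, pow_mul, hω]
  have hvg₀ : A.valuation g₀ = 1 := by
    rw [hg₀def, map_mul, map_pow, ht1, hvω, one_pow, one_mul]
  have hg₀0 : g₀ ≠ 0 := by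
    intro h
    rw [h, map_zero] at hvg₀
    exact zero_ne_one hvg₀
  have hσg₀ : σ g₀ = g₀ := by
    rw [hg₀def, map_mul, map_pow, hσω', map_intCast]
  have h1 : A.valuation (g ^ p - g₀ ^ p) ≤ A.valuation (p : L) ^ 2 := by
    have e : g ^ p - g₀ ^ p = -(w - g ^ p) + ((w - (t : L)) +
        ((t : L) - (t : L) ^ p * (1 + (p : L)) ^ n)) := by rw [hg₀p]; ring
    rw [e]
    refine (A.valuation.map_add _ _).trans (max_le ?_ ?_)
    · rw [Valuation.map_neg]; exact hgw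
    · exact (A.valuation.map_add _ _).trans (max_le htw htn)
  obtain ⟨g₂, hg₂def⟩ : ∃ g₂, g₂ = g / g₀ := ⟨_, rfl⟩
  have hgg : g = g₂ * g₀ := by rw [hg₂def, div_mul_cancel₀ _ hg₀0]
  have hg₂ : A.valuation (g₂ ^ p - 1) ≤ A.valuation (p : L) ^ 2 := by
    have e : g₂ ^ p - 1 = (g ^ p - g₀ ^ p) / g₀ ^ p := by
      rw [hg₂def, div_pow, sub_div, div_self (pow_ne_zero _ hg₀0)]
    rw [e, map_div₀, map_pow, hvg₀, one_pow, div_one]
    exact h1
  obtain ⟨ζ, hζ, hζg⟩ := Fermat.Agent.S44.C.H01.stmt_V1 L A.ValueGroup A.valuation p hp g₂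
  have h2 : A.valuation (g₂ - ζ) ≤ A.valuation (p : L) := by
    have h := hζg.trans hg₂
    rw [pow_two] at h
    exact le_of_mul_le_mul_right h hvp_pos
  have hσζ' : σ ζ = ζ := hσζ ζ hζ
  have h3 : A.valuation (σ g₂ - g₂) ≤ A.valuation (p : L) := by
    have e : σ g₂ - g₂ = σ (g₂ - ζ) - (g₂ - ζ) := by rw [map_sub, hσζ']; ring
    rw [e]
    exact (A.valuation.map_sub _ _).trans (max_le (by rw [hσv]; exact h2) h2)
  have h4 : A.valuation (σ g - g) ≤ A.valuation (p : L) := by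
    have e : σ g - g = (σ g₂ - g₂) * g₀ := by
      rw [hgg, map_mul, hσg₀]; ring
    rw [e, map_mul, hvg₀, mul_one]
    exact h3
  -- `S = σ Q - Q ∈ E₁[p]`
  have hS1' : InE1 A (σ • Q - Q) := node_F2 A W' hyp β hβ σ hσv hσr hσβ Q hQ0
  obtain ⟨S, hSdef⟩ : ∃ S, S = σ • Q - Q := ⟨_, rfl⟩
  have hS1 : InE1 A S := by rw [hSdef]; exact hS1'
  have hS0 : InE0 A S := node_inE0_of_inE1 hS1
  have hpS : p • S = 0 := by
    have e : p • (σ • Q) = σ • (p • Q) :=
      (map_nsmul (DistribSMul.toAddMonoidHom (W'⁄L).Point σ) p Q).symm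
    rw [hSdef, smul_sub, e, hσpQ, sub_self]
  have hσQ : σ • Q = Q + S := by rw [hSdef]; abel
  have hlamσ : lam β (σ • Q) = σ g := by rw [hgdef]; exact lam_smul W' σ hσβ Q
  have h5 := val_lam_add hyp hβ Q S hQ0 hS0 (by rw [← hσQ]; exact inE0_smul A W' σ hσv hQ0)
  rw [← hσQ, hlamσ, ← hgdef] at h5
  have hδ1 : A.valuation (lam β S - 1) < 1 := val_lam_sub_one_lt hyp hβ S hS1
  have h6 : A.valuation (σ g - g * lam β S) ≤ A.valuation (p : L) :=
    h5.trans ((mul_le_of_le_one_right' hδ1.le).trans hbp.le)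
  have h7 : A.valuation (lam β S - 1) ≤ A.valuation (p : L) := by
    have e : g * (lam β S - 1) = -(σ g - g * lam β S) + (σ g - g) := by ring
    have h := (A.valuation.map_add (-(σ g - g * lam β S)) (σ g - g)).trans
      (max_le (by rw [Valuation.map_neg]; exact h6) h4)
    rw [← e, map_mul, hg1, one_mul] at h
    exact h
  have h8 : A.valuation (lam β S - 1) ^ (p - 1) < A.valuation (p : L) := by
    have hp3 : 2 ≤ p - 1 := by
      have := hp.two_le
      have : p ≠ 2 := hp2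
      omega
    calc A.valuation (lam β S - 1) ^ (p - 1) ≤ A.valuation (p : L) ^ (p - 1) :=
          pow_le_pow_left₀ zero_le h7 _
      _ ≤ A.valuation (p : L) ^ 2 := pow_le_pow_of_le_one zero_le hpA.le hp3
      _ < A.valuation (p : L) := hvp2
  have hS : S = 0 := stmt_NodeL4 L A (W'⁄L) hyp β hβ p hp hpA hbp S hS1 hpS h8
  have hσQ' : σ • Q = Q := by rw [hσQ, hS, add_zero]
  calc σ • P = σ • (Q + R₀) := by rw [hPQ]
    _ = σ • Q + σ • R₀ := smul_add σ Q R₀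
    _ = Q + R₀ := by rw [hσQ', hσR₀]
    _ = P := hPQ.symm

end core

end Fermat.Agent.S39.FinMult.H33
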