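/-
S39 leaf FinMult (helper33), FINAL: `Fermat.Agent.S39.Stmt_FinMult` from the arithmetic leaves
NODE-ARITH and NODE-PEU.  Adapted from `S44/C/H33_Final.lean`.
Plan: NOTES/plan/L_S39_FinMult.md.
-/
import Fermat.Agent.S39.FinMult.H33_Core
import Fermat.Agent.S39.Wiring
import Fermat.Agent.S44.C.H33_Det
import Fermat.Agent.L.H52_DetCyc
import Fermat.Agent.Lib.EllFinite.H46_Finrank
import Fermat.Agent.S05.Inertia

set_option autoImplicit false

namespace Fermat.Agent.S39.FinMult.H33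

open WeierstrassCurve WeierstrassCurve.Affine WeierstrassCurve.Affine.Point
open Fermat.Agent.S05 (InE0 InE1)
open Fermat.Agent.S44 (GQ Tors IsFiniteAt)

/-- **FinMult from the arithmetic leaves.** -/
theorem stmt_FinMult_of (hArith : Stmt_NodeArith) (hPeu : Stmt_NodePeu) :
    Fermat.Agent.S39.Stmt_FinMult := by
  intro W hΔ p hp hp2 hpΔ hpc4 hpeu A hA
  haveI : Fact p.Prime := ⟨hp⟩
  have hpA : A.valuation ((p : ℕ) : AlgebraicClosure ℚ) < 1 :=
    Fermat.Agent.S05.H15.valuation_lt_one_of_mem_nonunits hA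
  have hEΔ : (W.map (Int.castRingHom ℚ)).Δ ≠ 0 := by
    rw [WeierstrassCurve.map_Δ]
    simpa using hΔ
  have hdim : Module.finrank (ZMod p) (Tors (W.map (Int.castRingHom ℚ)) p) = 2 :=
    Fermat.Agent.Lib.EllFinite.H46.finrank_torsionBy_rat _ hEΔ p
  obtain ⟨G, r, s, t, hvc, hyp, hGΔ⟩ := hArith W hΔ p hp hp2 hpΔ hpc4 A hA
  obtain ⟨c₀, hc, hΔ2⟩ := hPeu W hΔ p hp hp2 hpΔ hpeu A hA
  have hΔeq : (G⁄(AlgebraicClosure ℚ)).Δ = (((W.Δ : ℤ) : ℚ) : AlgebraicClosure ℚ) := by
    show (G.map (algebraMap ℚ (AlgebraicClosure ℚ))).Δ = _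
    rw [WeierstrassCurve.map_Δ, hGΔ, eq_ratCast]
  have hc' : A.valuation (algebraMap ℚ (AlgebraicClosure ℚ) c₀) ^ p =
      A.valuation (G⁄(AlgebraicClosure ℚ)).Δ := by rw [hΔeq]; exact hc
  have hΔ2' : A.valuation (G⁄(AlgebraicClosure ℚ)).Δ ≤
      A.valuation ((p : ℕ) : AlgebraicClosure ℚ) ^ 2 := by rw [hΔeq]; exact hΔ2
  have halg : Algebra.IsAlgebraic ℚ (AlgebraicClosure ℚ) := AlgebraicClosure.isAlgebraic ℚ
  -- equivariance of the variable change
  have hΦσ : ∀ (σ : GQ) (Q : ((W.map (Int.castRingHom ℚ)).toAffine⁄(AlgebraicClosure ℚ)).Point),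
      hvc.addEquiv (σ • Q) = σ • hvc.addEquiv Q := by
    intro σ Q
    rcases Q with _ | ⟨X, Y, hXY⟩
    · rfl
    · rw [WeierstrassCurve.Affine.Point.algEquiv_smul_def, Affine.Point.map_some,
        hvc.addEquiv_some, hvc.addEquiv_some,
        WeierstrassCurve.Affine.Point.algEquiv_smul_def, Affine.Point.map_some]
      apply Fermat.Agent.S05.H14.IsVarChange.some_congr
      · simp only [Fermat.Agent.S05.H14.fx, map_add, map_mul, map_pow, map_one,
          AlgEquiv.coe_toAlgHom, AlgEquiv.commutes]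
      · simp only [Fermat.Agent.S05.H14.fy, map_add, map_mul, map_pow, map_one,
          AlgEquiv.coe_toAlgHom, AlgEquiv.commutes]
  -- the kernel of reduction as a subgroup of `V`
  let T₀ : AddSubgroup (Tors (W.map (Int.castRingHom ℚ)) p) :=
    { carrier := {x | InE1 A (hvc.addEquiv x.1)}
      zero_mem' := by
        show InE1 A (hvc.addEquiv
          (0 : ((W.map (Int.castRingHom ℚ)).toAffine⁄(AlgebraicClosure ℚ)).Point))
        rw [_root_.map_zero]; trivial
      add_mem' := by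
        intro x y hx hy
        show InE1 A (hvc.addEquiv (x.1 + y.1))
        rw [map_add]
        exact stmt_NodeE1 (AlgebraicClosure ℚ) A _ hyp _ _ hx hy
      neg_mem' := by
        intro x hx
        show InE1 A (hvc.addEquiv (-x.1))
        rw [map_neg]
        exact node_inE1_neg hx }
  have hT₀ : ∀ x : Tors (W.map (Int.castRingHom ℚ)) p,
      x ∈ AddSubgroup.toZModSubmodule p T₀ ↔ InE1 A (hvc.addEquiv x.1) := by
    intro x
    rw [AddSubgroup.mem_toZModSubmodule]
    exact Iff.rfl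
  -- torsion points
  have htors : ∀ x : Tors (W.map (Int.castRingHom ℚ)) p, p • hvc.addEquiv x.1 = 0 := by
    intro x
    have hx : (p : ℤ) • (x : ((W.map (Int.castRingHom ℚ)).toAffine⁄(AlgebraicClosure ℚ)).Point)
        = 0 := by
      have := x.2
      rwa [Submodule.mem_torsionBy_iff] at this
    rw [← natCast_zsmul, ← map_zsmul, hx, _root_.map_zero]
  -- inertia acts trivially modulo `T`
  have hTσ : ∀ σ ∈ A.inertiaSubgroupIn ℚ, ∀ x : Tors (W.map (Int.castRingHom ℚ)) p,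
      σ • x - x ∈ AddSubgroup.toZModSubmodule p T₀ := by
    intro σ hσ x
    rw [hT₀]
    show InE1 A (hvc.addEquiv (σ • x.1 - x.1))
    rw [map_sub, hΦσ]
    obtain ⟨hval, hres⟩ := Fermat.Agent.S05.inertia A σ hσ
    exact node_core_E1 halg A G hyp p hp hp2 hpA c₀ hc' σ hval hres _ (htors x)
  -- `T ≠ ⊤`
  have hTne : AddSubgroup.toZModSubmodule p T₀ ≠ ⊤ := by
    intro htop
    obtain ⟨x, y, h, hpt, hx⟩ := stmt_NodeRoot (AlgebraicClosure ℚ) A p hp hp2 hpA
      (G⁄(AlgebraicClosure ℚ)) hyp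
    obtain ⟨Q, hQdef⟩ : ∃ Q, Q = hvc.addEquiv.symm (Point.some x y h) := ⟨_, rfl⟩
    have hΦQ : hvc.addEquiv Q = Point.some x y h := by
      rw [hQdef, AddEquiv.apply_symm_apply]
    have hQ : (p : ℤ) • Q = 0 := by
      apply hvc.addEquiv.injective
      rw [map_zsmul, hΦQ, natCast_zsmul, hpt, _root_.map_zero]
    have hQmem : Q ∈ Submodule.torsionBy ℤ
        ((W.map (Int.castRingHom ℚ)).toAffine⁄(AlgebraicClosure ℚ)).Point p :=
      (Submodule.mem_torsionBy_iff _ _).2 hQ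
    have hmem : (⟨Q, hQmem⟩ : Tors (W.map (Int.castRingHom ℚ)) p) ∈
        AddSubgroup.toZModSubmodule p T₀ := by rw [htop]; trivial
    rw [hT₀] at hmem
    have h2 : InE1 A (hvc.addEquiv Q) := hmem
    rw [hΦQ] at h2
    exact lt_asymm hx h2
  refine ⟨AddSubgroup.toZModSubmodule p T₀, hTne, ?_, ?_, ?_⟩
  · -- clause (1): the cyclotomic character on `T`
    intro σ hσ n hn x hx
    have hdet := Fermat.Agent.L.H52.det_eq_natCast (p := p)
      (Fermat.Agent.S39.isIntegralModelOf_map' W) hΔ σ n hn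
    have h := Fermat.Agent.S44.C.H33.apply_eq_det_smul hdim (AddSubgroup.toZModSubmodule p T₀)
      hTne
      (galoisRepModuleEnd (S := ℚ) (K := AlgebraicClosure ℚ)
        (W.map (Int.castRingHom ℚ)).toAffine p σ)
      (fun v => by rw [galoisRepModuleEnd_apply]; exact hTσ σ hσ v) hx
    rw [h, hdet]
  · -- clause (2)
    intro σ hσ x
    rw [galoisRepModuleEnd_apply]
    exact hTσ σ hσ x
  · -- clause (3): peu ramifié with `u = 1 + p`
    refine ⟨1 + (p : ℤ), ?_, ?_⟩
    · intro h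
      have h1 : (p : ℤ) ∣ 1 := (dvd_add_left (dvd_refl (p : ℤ))).1 h
      have h2 : p ∣ 1 := by exact_mod_cast h1
      exact hp.one_lt.ne' (Nat.dvd_one.1 h2)
    · intro σ hσ hζ hω x
      rw [galoisRepModuleEnd_apply]
      apply Subtype.ext
      show σ • (x : ((W.map (Int.castRingHom ℚ)).toAffine⁄(AlgebraicClosure ℚ)).Point) = x
      apply hvc.addEquiv.injective
      rw [hΦσ]
      obtain ⟨hval, hres⟩ := Fermat.Agent.S05.inertia A σ hσ
      exact node_core_peu halg A G hyp p hp hp2 hpA hΔ2' c₀ hc' σ hval hres hζ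
        (fun z hz => hω z (by rw [hz]; push_cast; ring)) _ (htors x)

end Fermat.Agent.S39.FinMult.H33
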