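/-
S39 leaf FinMult (helper33), NODE-M: the approximate character
`lam = (y - β x)/(y + β x)` on the node model `y² = x³ + a x² + b x + c`, `β² = a`,
`|b|, |c| ≤ |Δ| < 1`: `lam` is a unit on `E₀`, `lam (-P) = (lam P)⁻¹`,
`|lam P - 1|² |x(P)| = 1` on `E₀`, and
`|lam (P + Q) - lam P · lam Q| ≤ |Δ| · |lam Q - 1|` for `P, Q, P + Q ∈ E₀`.
Adapted from `S44/C/H38_M.lean` (helper38).  Plan: NOTES/plan/L_S39_FinMult.md.
-/
import Fermat.Agent.S39.FinMult.H33_Struct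
import Fermat.Agent.S44.C.H38_M

set_option autoImplicit false

namespace Fermat.Agent.S39.FinMult.H33

open WeierstrassCurve WeierstrassCurve.Affine
open Fermat.Agent.S05 (InE0 InE1)
open Fermat.Agent.S44.C (lam lam_zero lam_some)
open Fermat.Agent.S44.C.H38 (le_of_sq_le_sq_g eq_of_sq_eq_sq_g)

/-! ### Valuations of `y ± β x` on `E₀` -/

section Val

variable {L : Type*} [Field L] {Γ : Type*} [LinearOrderedCommGroupWithZero Γ] (v : Valuation L Γ)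

/-- If `s d = x³ + r`, `s - d = c x` with `|c| = 1`, `|r| < |x|³`, `1 ≤ |x|` then
`|s| = |d|` and `|s|² = |x|³`. -/
lemma val_sd_node {x r s d c : L} (hx : 1 ≤ v x) (hr : v r < v x ^ 3) (hc : v c = 1)
    (hprod : s * d = x ^ 3 + r) (hdiff : s - d = c * x) :
    v s = v d ∧ v s ^ 2 = v x ^ 3 := by
  have hx0 : 0 < v x := lt_of_lt_of_le zero_lt_one hx
  have h1 : v (x ^ 3 + r) = v x ^ 3 := by
    rw [← map_pow]
    refine Valuation.map_add_eq_of_lt_left v ?_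
    rw [map_pow]
    exact hr
  have hp : v s * v d = v x ^ 3 := by
    rw [← map_mul, hprod, h1]
  have hd : v (s - d) = v x := by rw [hdiff, map_mul, hc, one_mul]
  have hlt : v x ^ 2 < v x → False := by
    intro h
    have : v x ^ 1 ≤ v x ^ 2 := pow_le_pow_right₀ hx (by norm_num)
    rw [pow_one] at this
    exact absurd h (not_lt.2 this)
  have heq : v s = v d := by
    rcases lt_trichotomy (v s) (v d) with h | h | h
    · exfalso
      have h2 : v (s - d) = v d := Valuation.map_sub_eq_of_lt_right v h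
      have h3 : v d = v x := by rw [← h2, hd]
      have h4 : v s = v x ^ 2 := by
        rw [h3] at hp
        have : v s * v x = v x ^ 2 * v x := by rw [hp]; exact pow_succ (v x) 2
        exact mul_right_cancel₀ hx0.ne' this
      rw [h4, h3] at h
      exact hlt h
    · exact h
    · exfalso
      have h2 : v (s - d) = v s := Valuation.map_sub_eq_of_lt_left v h
      have h3 : v s = v x := by rw [← h2, hd]
      have h4 : v d = v x ^ 2 := by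
        rw [h3] at hp
        have : v x * v d = v x * v x ^ 2 := by rw [hp]; exact pow_succ' (v x) 2
        exact mul_left_cancel₀ hx0.ne' this
      rw [h4, h3] at h
      exact hlt h
  refine ⟨heq, ?_⟩
  rw [sq, ← hp, heq]

end Val

/-! ### The model -/

section Model

variable {L : Type*} [Field L] {A : ValuationSubring L} {W : Affine L}

lemma node_equation_iff (h₁ : W.a₁ = 0) (h₃ : W.a₃ = 0) (x y : L) :
    W.Equation x y ↔ y ^ 2 = x ^ 3 + W.a₂ * x ^ 2 + W.a₄ * x + W.a₆ := by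
  rw [Affine.equation_iff, h₁, h₃]
  constructor <;> intro h <;> linear_combination h

lemma node_eqn (hyp : NodeHyp A W) {x y : L} (h : W.Nonsingular x y) :
    y ^ 2 = x ^ 3 + W.a₂ * x ^ 2 + W.a₄ * x + W.a₆ :=
  (node_equation_iff hyp.a₁ hyp.a₃ x y).1 h.1

lemma node_negY (h₁ : W.a₁ = 0) (h₃ : W.a₃ = 0) (x y : L) : W.negY x y = -y := by
  simp [Affine.negY, h₁, h₃]

lemma val_beta (hyp : NodeHyp A W) {β : L} (hβ : β ^ 2 = W.a₂) : A.valuation β = 1 := by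
  have h1 : A.valuation β ^ 2 = 1 := by rw [← map_pow, hβ, hyp.a_one]
  exact eq_of_sq_eq_sq_g (by rw [h1, one_pow])

lemma val_two_beta (hyp : NodeHyp A W) {β : L} (hβ : β ^ 2 = W.a₂) :
    A.valuation (2 * β) = 1 := by
  rw [map_mul, hyp.two, val_beta hyp hβ, one_mul]

/-- `|b x + c| < |x|³` for `1 ≤ |x|`. -/
lemma val_bx_c_lt (hyp : NodeHyp A W) {x : L} (hx : 1 ≤ A.valuation x) :
    A.valuation (W.a₄ * x + W.a₆) < A.valuation x ^ 3 := by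
  have hx0 : 0 < A.valuation x := lt_of_lt_of_le zero_lt_one hx
  have hx2 : 1 ≤ A.valuation x ^ 2 := one_le_pow₀ hx
  have hx3 : 1 ≤ A.valuation x ^ 3 := one_le_pow₀ hx
  refine Valuation.map_add_lt _ ?_ (lt_of_lt_of_le (val_c_lt hyp) hx3)
  rw [map_mul]
  calc A.valuation W.a₄ * A.valuation x < 1 * A.valuation x :=
        mul_lt_mul_of_pos_right (val_b_lt hyp) hx0
    _ = A.valuation x := one_mul _
    _ = A.valuation x * 1 := (mul_one _).symm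
    _ ≤ A.valuation x * A.valuation x ^ 2 := by gcongr
    _ = A.valuation x ^ 3 := (pow_succ' _ 2).symm

/-- On `E₀`: `|y + β x| = |y - β x|` and `|y + β x|² = |x|³`. -/
lemma val_s_d (hyp : NodeHyp A W) {β : L} (hβ : β ^ 2 = W.a₂) {x y : L}
    (h : W.Nonsingular x y) (hx : 1 ≤ A.valuation x) :
    A.valuation (y + β * x) = A.valuation (y - β * x) ∧
      A.valuation (y + β * x) ^ 2 = A.valuation x ^ 3 := by
  refine val_sd_node A.valuation hx (val_bx_c_lt hyp hx) (val_two_beta hyp hβ) ?_ (by ring)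
  have e := node_eqn hyp h
  linear_combination e - x ^ 2 * hβ

lemma s_ne_zero (hyp : NodeHyp A W) {β : L} (hβ : β ^ 2 = W.a₂) {x y : L}
    (h : W.Nonsingular x y) (hx : 1 ≤ A.valuation x) : y + β * x ≠ 0 := by
  intro h0
  have h1 := (val_s_d hyp hβ h hx).2
  rw [h0, map_zero] at h1
  have hx0 : 0 < A.valuation x := lt_of_lt_of_le zero_lt_one hx
  have : (0 : A.ValueGroup) < A.valuation x ^ 3 := pow_pos hx0 3
  rw [← h1] at this
  simp at this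

lemma d_ne_zero (hyp : NodeHyp A W) {β : L} (hβ : β ^ 2 = W.a₂) {x y : L}
    (h : W.Nonsingular x y) (hx : 1 ≤ A.valuation x) : y - β * x ≠ 0 := by
  intro h0
  have h1 := val_s_d hyp hβ h hx
  rw [h0, map_zero] at h1
  have := s_ne_zero hyp hβ h hx
  exact this ((map_eq_zero _).1 h1.1)

/-- `lam` is a unit on `E₀`. -/
theorem val_lam_eq_one (hyp : NodeHyp A W) {β : L} (hβ : β ^ 2 = W.a₂) (P : W.Point)
    (hP : InE0 A P) : A.valuation (lam β P) = 1 := by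
  rcases P with _ | ⟨x, y, h⟩
  · show A.valuation (1 : L) = 1
    exact map_one _
  · have hx : 1 ≤ A.valuation x := hP
    have h1 := val_s_d hyp hβ h hx
    have hs := s_ne_zero hyp hβ h hx
    rw [lam_some, map_div₀, ← h1.1]
    exact div_self ((map_ne_zero _).2 hs)

/-- `lam (-P) = (lam P)⁻¹`. -/
theorem lam_neg (hyp : NodeHyp A W) (β : L) (P : W.Point) : lam β (-P) = (lam β P)⁻¹ := by
  rcases P with _ | ⟨x, y, h⟩
  · show lam β (-(0 : W.Point)) = (lam β (0 : W.Point))⁻¹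
    simp
  · rw [Point.neg_some, lam_some, lam_some, node_negY hyp.a₁ hyp.a₃, inv_div]
    have e1 : -y - β * x = -(y + β * x) := by ring
    have e2 : -y + β * x = -(y - β * x) := by ring
    rw [e1, e2, neg_div_neg_eq]

/-- `lam P - 1 = -(2 β x)/(y + β x)`. -/
lemma lam_sub_one (hyp : NodeHyp A W) {β : L} (hβ : β ^ 2 = W.a₂) {x y : L}
    (h : W.Nonsingular x y) (hx : 1 ≤ A.valuation x) :
    lam β (Point.some x y h) - 1 = -(2 * β * x) / (y + β * x) := by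
  have hs := s_ne_zero hyp hβ h hx
  rw [lam_some]
  field_simp
  ring

/-- On `E₀ \ 0`: `|lam P - 1|² |x| = 1`. -/
lemma val_lam_sub_one_sq (hyp : NodeHyp A W) {β : L} (hβ : β ^ 2 = W.a₂) {x y : L}
    (h : W.Nonsingular x y) (hx : 1 ≤ A.valuation x) :
    A.valuation (lam β (Point.some x y h) - 1) ^ 2 * A.valuation x = 1 := by
  have h1 := (val_s_d hyp hβ h hx).2
  have hs := s_ne_zero hyp hβ h hx
  have hx0 : 0 < A.valuation x := lt_of_lt_of_le zero_lt_one hx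
  have hs0 : A.valuation (y + β * x) ≠ 0 := (map_ne_zero _).2 hs
  rw [lam_sub_one hyp hβ h hx, map_div₀, Valuation.map_neg, map_mul, val_two_beta hyp hβ,
    one_mul, div_pow, h1, div_mul_eq_mul_div, ← pow_succ]
  exact div_self (pow_ne_zero _ hx0.ne')

/-- `|lam - 1| < 1` on `E₁`. -/
theorem val_lam_sub_one_lt (hyp : NodeHyp A W) {β : L} (hβ : β ^ 2 = W.a₂) (P : W.Point)
    (hP : InE1 A P) : A.valuation (lam β P - 1) < 1 := by
  rcases P with _ | ⟨x, y, h⟩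
  · show A.valuation ((1 : L) - 1) < 1
    rw [sub_self, map_zero]; exact zero_lt_one
  · have hx : 1 < A.valuation x := hP
    have h1 := val_lam_sub_one_sq hyp hβ h hx.le
    by_contra hc
    have hc := not_lt.1 hc
    have h2 : 1 ≤ A.valuation (lam β (Point.some x y h) - 1) ^ 2 := one_le_pow₀ hc
    have h3 : 1 < A.valuation (lam β (Point.some x y h) - 1) ^ 2 * A.valuation x := by
      calc (1 : A.ValueGroup) < A.valuation x := hx
        _ = 1 * A.valuation x := (one_mul _).symm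
        _ ≤ _ := mul_le_mul_left h2 _
    rw [h1] at h3
    exact lt_irrefl _ h3

/-- Converse: a point of `E₀` with `|lam - 1| < 1` lies in `E₁`. -/
theorem inE1_of_val_lam_sub_one_lt (hyp : NodeHyp A W) {β : L} (hβ : β ^ 2 = W.a₂)
    (P : W.Point) (hP : InE0 A P) (h : A.valuation (lam β P - 1) < 1) : InE1 A P := by
  rcases P with _ | ⟨x, y, hxy⟩
  · trivial
  · have hx : 1 ≤ A.valuation x := hP
    have h1 := val_lam_sub_one_sq hyp hβ hxy hx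
    show 1 < A.valuation x
    by_contra hc
    have hx1 : A.valuation x = 1 := le_antisymm (not_lt.1 hc) hx
    rw [hx1, mul_one] at h1
    have : A.valuation (lam β (Point.some x y hxy) - 1) ^ 2 < 1 :=
      pow_lt_one₀ zero_le h two_ne_zero
    rw [h1] at this
    exact lt_irrefl _ this

end Model

/-! ### The line through `P₁`, `P₂`, `-P₃` -/

section Line

variable {L : Type*} [Field L] [DecidableEq L]

/-- Line data (Vieta relations) for the sum of two affine points on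
`y² = x³ + a x² + b x + c`. -/
theorem node_line (W : Affine L) (h₁ : W.a₁ = 0) (h₃ : W.a₃ = 0)
    (x₁ y₁ x₂ y₂ x₃ y₃ : L) (hP₁ : W.Nonsingular x₁ y₁) (hP₂ : W.Nonsingular x₂ y₂)
    (hP₃ : W.Nonsingular x₃ y₃)
    (hadd : Point.some x₁ y₁ hP₁ + Point.some x₂ y₂ hP₂ = Point.some x₃ y₃ hP₃) :
    ∃ ℓ μ : L, y₁ = ℓ * x₁ + μ ∧ y₂ = ℓ * x₂ + μ ∧ -y₃ = ℓ * x₃ + μ ∧
      x₁ + x₂ + x₃ = ℓ ^ 2 - W.a₂ ∧ x₁ * x₂ + x₁ * x₃ + x₂ * x₃ = W.a₄ - 2 * ℓ * μ ∧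
      x₁ * x₂ * x₃ = μ ^ 2 - W.a₆ := by
  have e₁ := (node_equation_iff h₁ h₃ x₁ y₁).1 hP₁.1
  have e₂ := (node_equation_iff h₁ h₃ x₂ y₂).1 hP₂.1
  by_cases hxy : x₁ = x₂ ∧ y₁ = W.negY x₂ y₂
  · rw [Point.add_of_Y_eq hxy.1 hxy.2] at hadd
    exact absurd hadd.symm (Point.some_ne_zero hP₃)
  rw [Point.add_some hxy] at hadd
  have hx₃ : W.addX x₁ x₂ (W.slope x₁ x₂ y₁ y₂) = x₃ := by
    injection hadd
  have hy₃ : W.addY x₁ x₂ y₁ (W.slope x₁ x₂ y₁ y₂) = y₃ := by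
    injection hadd
  obtain ⟨ℓ, hℓ⟩ : ∃ ℓ, ℓ = W.slope x₁ x₂ y₁ y₂ := ⟨_, rfl⟩
  rw [← hℓ] at hx₃ hy₃
  simp only [addX, h₁] at hx₃
  simp only [addY, negAddY, addX, node_negY h₁ h₃, h₁] at hy₃
  -- the key relation: divided difference of the cubic along the line
  have key : x₁ ^ 2 + x₁ * x₂ + x₂ ^ 2 + W.a₂ * (x₁ + x₂) + W.a₄ - ℓ ^ 2 * (x₁ + x₂)
      - 2 * ℓ * (y₁ - ℓ * x₁) = 0 ∧ y₂ = ℓ * x₂ + (y₁ - ℓ * x₁) := by
    by_cases hx : x₁ = x₂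
    · have hy : y₁ ≠ W.negY x₂ y₂ := fun h => hxy ⟨hx, h⟩
      have hyy := Y_eq_of_Y_ne hP₁.1 hP₂.1 hx hy
      subst hx; subst hyy
      have hd : y₁ - W.negY x₁ y₁ ≠ 0 := sub_ne_zero.2 hy
      have hℓ' : ℓ * (y₁ - W.negY x₁ y₁) = 3 * x₁ ^ 2 + 2 * W.a₂ * x₁ + W.a₄ - W.a₁ * y₁ := by
        rw [hℓ, slope_of_Y_ne rfl hy, div_mul_cancel₀ _ hd]
      rw [node_negY h₁ h₃, h₁] at hℓ'
      refine ⟨?_, by ring⟩
      linear_combination (-1 : L) * hℓ'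
    · have hd : x₁ - x₂ ≠ 0 := sub_ne_zero.2 hx
      have hℓ' : ℓ * (x₁ - x₂) = y₁ - y₂ := by
        rw [hℓ, slope_of_X_ne hx, div_mul_cancel₀ _ hd]
      refine ⟨?_, by linear_combination hℓ'⟩
      apply mul_left_cancel₀ hd
      linear_combination (-1 : L) * e₁ + e₂ + (ℓ * (x₁ - x₂) - y₁ - y₂) * hℓ'
  obtain ⟨key, hy₂⟩ := key
  refine ⟨ℓ, y₁ - ℓ * x₁, by ring, hy₂, ?_, ?_, ?_, ?_⟩
  · rw [← hy₃, ← hx₃]; ring
  · rw [← hx₃]; ring
  · -- Vieta 2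
    rw [← hx₃]
    linear_combination (-1 : L) * key
  · -- Vieta 3
    rw [← hx₃]
    linear_combination (-1 : L) * e₁ - x₁ * key

omit [DecidableEq L] in
/-- The exact identity behind the multiplicativity of `lam` (line `y = ℓ x + μ`). -/
lemma node_key_id (a b c β ℓ μ x₁ x₂ x₃ y₁ y₂ y₃ : L) (hβ : β ^ 2 = a)
    (e₁ : y₁ = ℓ * x₁ + μ) (e₂ : y₂ = ℓ * x₂ + μ) (e₃ : -y₃ = ℓ * x₃ + μ)
    (V₁ : x₁ + x₂ + x₃ = ℓ ^ 2 - a) (V₂ : x₁ * x₂ + x₁ * x₃ + x₂ * x₃ = b - 2 * ℓ * μ)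
    (V₃ : x₁ * x₂ * x₃ = μ ^ 2 - c) :
    (y₃ - β * x₃) * ((y₁ + β * x₁) * (y₂ + β * x₂))
        - (y₁ - β * x₁) * (y₂ - β * x₂) * (y₃ + β * x₃) =
      -(4 * b * β * ℓ * μ) + 2 * β * c * (3 * ℓ ^ 2 + a) := by
  have e₃' : y₃ = -(ℓ * x₃ + μ) := by linear_combination -e₃
  subst e₁ e₂ e₃'
  linear_combination (-(6 * ℓ ^ 2 * β + 2 * β ^ 3)) * V₃ + (-(4 * ℓ * β * μ)) * V₂
    + (-(2 * β * μ ^ 2)) * V₁ + (-(2 * β * μ ^ 2) + 2 * β * c) * hβ

end Line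

/-! ### The main estimate -/

section Est

variable {L : Type*} [Field L] [DecidableEq L] {A : ValuationSubring L} {W : Affine L}

/-- The affine case of the main estimate. -/
lemma val_lam_add_some (hyp : NodeHyp A W) {β : L} (hβ : β ^ 2 = W.a₂)
    {x₁ y₁ x₂ y₂ x₃ y₃ : L} (h₁ : W.Nonsingular x₁ y₁)
    (h₂ : W.Nonsingular x₂ y₂) (h₃ : W.Nonsingular x₃ y₃)
    (hx₁ : 1 ≤ A.valuation x₁) (hx₂ : 1 ≤ A.valuation x₂) (hx₃ : 1 ≤ A.valuation x₃)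
    (hadd : Point.some x₁ y₁ h₁ + Point.some x₂ y₂ h₂ = Point.some x₃ y₃ h₃) :
    A.valuation (lam β (Point.some x₃ y₃ h₃)
        - lam β (Point.some x₁ y₁ h₁) * lam β (Point.some x₂ y₂ h₂)) ≤
      A.valuation W.Δ * A.valuation (lam β (Point.some x₂ y₂ h₂) - 1) := by
  obtain ⟨ℓ, μ, e₁, e₂, e₃, V₁, V₂, V₃⟩ :=
    node_line W hyp.a₁ hyp.a₃ x₁ y₁ x₂ y₂ x₃ y₃ h₁ h₂ h₃ hadd
  have hs₁ := s_ne_zero hyp hβ h₁ hx₁
  have hs₂ := s_ne_zero hyp hβ h₂ hx₂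
  have hs₃ := s_ne_zero hyp hβ h₃ hx₃
  have S₁ := (val_s_d hyp hβ h₁ hx₁).2
  have S₂ := (val_s_d hyp hβ h₂ hx₂).2
  have S₃ := (val_s_d hyp hβ h₃ hx₃).2
  have hU := val_lam_sub_one_sq hyp hβ h₂ hx₂
  set E : L := lam β (Point.some x₃ y₃ h₃)
        - lam β (Point.some x₁ y₁ h₁) * lam β (Point.some x₂ y₂ h₂) with hE
  set U : A.ValueGroup := A.valuation (lam β (Point.some x₂ y₂ h₂) - 1) with hUdef
  set R : L := -(4 * W.a₄ * β * ℓ * μ) + 2 * β * W.a₆ * (3 * ℓ ^ 2 + W.a₂) with hR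
  -- the exact identity
  have hid : E * ((y₁ + β * x₁) * (y₂ + β * x₂) * (y₃ + β * x₃)) = R := by
    rw [hR, ← node_key_id W.a₂ W.a₄ W.a₆ β ℓ μ x₁ x₂ x₃ y₁ y₂ y₃ hβ e₁ e₂ e₃ V₁ V₂ V₃, hE,
      lam_some, lam_some, lam_some]
    field_simp
  -- notation
  set X₁ := A.valuation x₁
  set X₂ := A.valuation x₂
  set X₃ := A.valuation x₃
  set T₁ := A.valuation (y₁ + β * x₁)
  set T₂ := A.valuation (y₂ + β * x₂)
  set T₃ := A.valuation (y₃ + β * x₃)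
  set D := A.valuation W.Δ
  have hX₁ : 0 < X₁ := lt_of_lt_of_le zero_lt_one hx₁
  have hX₂ : 0 < X₂ := lt_of_lt_of_le zero_lt_one hx₂
  have hX₃ : 0 < X₃ := lt_of_lt_of_le zero_lt_one hx₃
  have hB1 : (1 : A.ValueGroup) ≤ X₁ ^ 2 := one_le_pow₀ hx₁
  have hB3 : (1 : A.ValueGroup) ≤ X₃ ^ 2 := one_le_pow₀ hx₃
  have hPi1 : (1 : A.ValueGroup) ≤ X₁ * X₂ * X₃ :=
    one_le_mul_of_one_le_of_one_le (one_le_mul_of_one_le_of_one_le hx₁ hx₂) hx₃
  have p1 : X₁ ≤ X₁ * X₂ * X₃ :=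
    (le_mul_of_one_le_right' hx₂).trans (le_mul_of_one_le_right' hx₃)
  have p2 : X₂ ≤ X₁ * X₂ * X₃ :=
    (le_mul_of_one_le_left' hx₁).trans (le_mul_of_one_le_right' hx₃)
  have p3 : X₃ ≤ X₁ * X₂ * X₃ :=
    le_mul_of_one_le_left' (one_le_mul_of_one_le_of_one_le hx₁ hx₂)
  have c1 : A.valuation E * (T₁ * T₂ * T₃) = A.valuation R := by
    rw [← hid, map_mul, map_mul, map_mul]
  -- `|μ|² ≤ |x₁ x₂ x₃|`
  have c3 : A.valuation μ ^ 2 ≤ X₁ * X₂ * X₃ := by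
    have : μ ^ 2 = x₁ * x₂ * x₃ + W.a₆ := by linear_combination -V₃
    rw [← map_pow, this]
    refine (A.valuation.map_add _ _).trans (max_le ?_ ((val_c_lt hyp).le.trans hPi1))
    rw [map_mul, map_mul]
  -- `|ℓ|² ≤ |x₁|² |x₂| |x₃|²`
  have c4 : A.valuation ℓ ^ 2 ≤ X₁ ^ 2 * X₂ * X₃ ^ 2 := by
    have b1 : X₁ ≤ X₁ ^ 2 * X₂ * X₃ ^ 2 := by
      calc X₁ = X₁ ^ 1 := (pow_one _).symm
        _ ≤ X₁ ^ 2 := pow_le_pow_right₀ hx₁ (by norm_num)
        _ ≤ X₁ ^ 2 * X₂ := le_mul_of_one_le_right' hx₂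
        _ ≤ X₁ ^ 2 * X₂ * X₃ ^ 2 := le_mul_of_one_le_right' hB3
    have b2 : X₂ ≤ X₁ ^ 2 * X₂ * X₃ ^ 2 := by
      calc X₂ ≤ X₁ ^ 2 * X₂ := le_mul_of_one_le_left' hB1
        _ ≤ X₁ ^ 2 * X₂ * X₃ ^ 2 := le_mul_of_one_le_right' hB3
    have b3 : X₃ ≤ X₁ ^ 2 * X₂ * X₃ ^ 2 := by
      calc X₃ = X₃ ^ 1 := (pow_one _).symm
        _ ≤ X₃ ^ 2 := pow_le_pow_right₀ hx₃ (by norm_num)
        _ ≤ X₁ ^ 2 * X₂ * X₃ ^ 2 := le_mul_of_one_le_left' (one_le_mul_of_one_le_of_one_le hB1 hx₂)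
    have b0 : A.valuation W.a₂ ≤ X₁ ^ 2 * X₂ * X₃ ^ 2 :=
      le_trans hyp.a_one.le (le_trans hx₂ b2)
    have : ℓ ^ 2 = x₁ + x₂ + x₃ + W.a₂ := by linear_combination -V₁
    rw [← map_pow, this]
    exact Valuation.map_add_le _ (Valuation.map_add_le _ (Valuation.map_add_le _ b1 b2) b3) b0
  -- `|ℓ|² ≤ |x₁ x₂ x₃|`
  have c5 : A.valuation ℓ ^ 2 ≤ X₁ * X₂ * X₃ := by
    have : ℓ ^ 2 = x₁ + x₂ + x₃ + W.a₂ := by linear_combination -V₁
    rw [← map_pow, this]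
    exact Valuation.map_add_le _ (Valuation.map_add_le _ (Valuation.map_add_le _ p1 p2) p3)
      (hyp.a_one.le.trans hPi1)
  -- `|3 ℓ² + a| ≤ |x₁ x₂ x₃|`
  have c6 : A.valuation (3 * ℓ ^ 2 + W.a₂) ≤ X₁ * X₂ * X₃ := by
    refine Valuation.map_add_le _ ?_ (hyp.a_one.le.trans hPi1)
    rw [map_mul, map_pow]
    calc A.valuation 3 * A.valuation ℓ ^ 2 ≤ 1 * A.valuation ℓ ^ 2 :=
          mul_le_mul' (val_three_le hyp) le_rfl
      _ = A.valuation ℓ ^ 2 := one_mul _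
      _ ≤ X₁ * X₂ * X₃ := c5
  -- the first term
  have t1 : A.valuation (-(4 * W.a₄ * β * ℓ * μ)) ^ 2 * X₂ ≤ D ^ 2 * (X₁ * X₂ * X₃) ^ 3 := by
    have e1 : A.valuation (-(4 * W.a₄ * β * ℓ * μ)) ^ 2 =
        A.valuation W.a₄ ^ 2 * (A.valuation ℓ ^ 2 * A.valuation μ ^ 2) := by
      rw [Valuation.map_neg, map_mul, map_mul, map_mul, map_mul, val_four hyp, val_beta hyp hβ,
        one_mul, mul_one, mul_pow, mul_pow, mul_assoc]
    have e2 : D ^ 2 * (X₁ * X₂ * X₃) ^ 3 =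
        D ^ 2 * ((X₁ ^ 2 * X₂ * X₃ ^ 2) * (X₁ * X₂ * X₃)) * X₂ := by
      simp only [pow_succ, pow_zero, one_mul]
      ac_rfl
    rw [e1, e2]
    exact mul_le_mul' (mul_le_mul' (pow_le_pow_left₀ zero_le hyp.b_le 2) (mul_le_mul' c4 c3))
      le_rfl
  -- the second term
  have t2 : A.valuation (2 * β * W.a₆ * (3 * ℓ ^ 2 + W.a₂)) ^ 2 * X₂ ≤
      D ^ 2 * (X₁ * X₂ * X₃) ^ 3 := by
    have e1 : A.valuation (2 * β * W.a₆ * (3 * ℓ ^ 2 + W.a₂)) ^ 2 =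
        A.valuation W.a₆ ^ 2 * (A.valuation (3 * ℓ ^ 2 + W.a₂) * A.valuation (3 * ℓ ^ 2 + W.a₂)) := by
      rw [map_mul, map_mul, val_two_beta hyp hβ, one_mul, mul_pow, sq (A.valuation (3 * ℓ ^ 2 + W.a₂))]
    have e2 : D ^ 2 * (X₁ * X₂ * X₃) ^ 3 =
        D ^ 2 * ((X₁ * X₂ * X₃) * (X₁ * X₂ * X₃)) * (X₁ * X₂ * X₃) := by
      simp only [pow_succ, pow_zero, one_mul]
      ac_rfl
    rw [e1, e2]
    exact mul_le_mul' (mul_le_mul' (pow_le_pow_left₀ zero_le hyp.c_le 2) (mul_le_mul' c6 c6)) p2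
  have hRle : A.valuation R ^ 2 * X₂ ≤ D ^ 2 * (X₁ * X₂ * X₃) ^ 3 := by
    rcases le_max_iff.1 (A.valuation.map_add (-(4 * W.a₄ * β * ℓ * μ))
        (2 * β * W.a₆ * (3 * ℓ ^ 2 + W.a₂))) with h | h
    · exact (mul_le_mul' (pow_le_pow_left₀ zero_le h 2) le_rfl).trans t1
    · exact (mul_le_mul' (pow_le_pow_left₀ zero_le h 2) le_rfl).trans t2
  -- squares
  have hPi : 0 < (X₁ * X₂ * X₃) ^ 3 * X₂ := mul_pos (pow_pos (mul_pos (mul_pos hX₁ hX₂) hX₃) 3) hX₂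
  refine le_of_sq_le_sq_g ((mul_le_mul_iff_left₀ hPi).1 ?_)
  have l1 : A.valuation E ^ 2 * ((X₁ * X₂ * X₃) ^ 3 * X₂) = A.valuation R ^ 2 * X₂ := by
    have e : (T₁ * T₂ * T₃) ^ 2 = (X₁ * X₂ * X₃) ^ 3 := by
      rw [mul_pow, mul_pow, S₁, S₂, S₃, mul_pow, mul_pow]
    have e' : A.valuation R ^ 2 = A.valuation E ^ 2 * (X₁ * X₂ * X₃) ^ 3 := by
      rw [← c1, mul_pow (A.valuation E), e]
    rw [e', ← mul_assoc]
  have l2 : (D * U) ^ 2 * ((X₁ * X₂ * X₃) ^ 3 * X₂) = D ^ 2 * (X₁ * X₂ * X₃) ^ 3 := by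
    have : (D * U) ^ 2 * ((X₁ * X₂ * X₃) ^ 3 * X₂) =
        D ^ 2 * (X₁ * X₂ * X₃) ^ 3 * (U ^ 2 * X₂) := by
      rw [mul_pow]; ac_rfl
    rw [this, hU, mul_one]
  rw [l1, l2]
  exact hRle

omit [DecidableEq L] in
/-- `lam` is nonzero on `E₀`. -/
lemma lam_ne_zero (hyp : NodeHyp A W) {β : L} (hβ : β ^ 2 = W.a₂) (P : W.Point)
    (hP : InE0 A P) : lam β P ≠ 0 := by
  intro h0
  have := val_lam_eq_one hyp hβ P hP
  rw [h0, map_zero] at this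
  exact zero_ne_one this

/-- **Main estimate**: `|lam (P + Q) - lam P · lam Q| ≤ |Δ| · |lam Q - 1|` on `E₀`. -/
theorem val_lam_add (hyp : NodeHyp A W) {β : L} (hβ : β ^ 2 = W.a₂) (P Q : W.Point)
    (hP : InE0 A P) (hQ : InE0 A Q) (hPQ : InE0 A (P + Q)) :
    A.valuation (lam β (P + Q) - lam β P * lam β Q) ≤
      A.valuation W.Δ * A.valuation (lam β Q - 1) := by
  by_cases hP0 : P = 0
  · subst hP0
    rw [zero_add, lam_zero, one_mul, sub_self, map_zero]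
    exact zero_le
  by_cases hQ0 : Q = 0
  · subst hQ0
    rw [add_zero, lam_zero, mul_one, sub_self, map_zero]
    exact zero_le
  by_cases hS0 : P + Q = 0
  · have hQ' : Q = -P := (neg_eq_of_add_eq_zero_right hS0).symm
    rw [hS0, hQ', lam_neg hyp β P, lam_zero, mul_inv_cancel₀ (lam_ne_zero hyp hβ P hP), sub_self,
      map_zero]
    exact zero_le
  rcases P with _ | ⟨x₁, y₁, h₁⟩
  · exact absurd rfl hP0
  rcases Q with _ | ⟨x₂, y₂, h₂⟩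
  · exact absurd rfl hQ0
  rcases hS : Point.some x₁ y₁ h₁ + Point.some x₂ y₂ h₂ with _ | ⟨x₃, y₃, h₃⟩
  · exact absurd hS hS0
  rw [hS] at hPQ
  exact val_lam_add_some hyp hβ h₁ h₂ h₃ hP hQ hPQ hS

end Est

/-- Leaf **NODE-M**. -/
theorem stmt_NodeM : Stmt_NodeM := by
  intro L _ _ A W hyp β hβ
  exact ⟨fun P hP => val_lam_eq_one hyp hβ P hP, fun P => lam_neg hyp β P,
    fun x y h hx => val_lam_sub_one_sq hyp hβ h hx,
    fun P Q hP hQ hPQ => val_lam_add hyp hβ P Q hP hQ hPQ⟩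

end Fermat.Agent.S39.FinMult.H33
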