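/-
S39 leaf FinMult (helper33), NODE-L4: no small `p`-torsion in `E₁` of the node model.
If `|Δ| < |p| < 1`, `S ∈ E₁`, `p S = O` and `|lam S - 1| ^ (p - 1) < |p|` then `S = O`.
Adapted from `S44/C/H38_L4.lean` (helper38).  Plan: NOTES/plan/L_S39_FinMult.md.
-/
import Fermat.Agent.S39.FinMult.H33_M
import Fermat.Agent.S44.C.H01_Val

set_option autoImplicit false

namespace Fermat.Agent.S39.FinMult.H33

open WeierstrassCurve WeierstrassCurve.Affine
open Fermat.Agent.S05 (InE0 InE1)
open Fermat.Agent.S44.C (lam lam_zero lam_some Stmt_V2)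

section L4

variable {L : Type} [Field L] [DecidableEq L] [IsAlgClosed L] {A : ValuationSubring L}
  {W : Affine L}

omit [DecidableEq L] [IsAlgClosed L] in
lemma node_inE0_of_inE1 {P : W.Point} (h : InE1 A P) : InE0 A P := by
  rcases P with _ | ⟨x, y, hxy⟩
  · trivial
  · exact le_of_lt (show 1 < A.valuation x from h)

/-- `E₁` is closed under `k • ·`. -/
lemma node_inE1_nsmul (hyp : NodeHyp A W) {S : W.Point} (hS : InE1 A S) (k : ℕ) :
    InE1 A (k • S) := by
  induction k with
  | zero => rw [zero_smul]; trivial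
  | succ k ih =>
    rw [succ_nsmul]
    exact stmt_NodeE1 L A W hyp _ _ ih hS

omit [DecidableEq L] [IsAlgClosed L] in
/-- `E₁` is closed under negation. -/
lemma node_inE1_neg {S : W.Point} (hS : InE1 A S) : InE1 A (-S) := by
  rcases S with _ | ⟨x, y, h⟩
  · exact hS
  · exact hS

/-- `|lam (k S) - lam(S)^k| ≤ |Δ| |lam S - 1|` for `S ∈ E₁`. -/
lemma node_val_lam_nsmul (hyp : NodeHyp A W) {β : L} (hβ : β ^ 2 = W.a₂) {S : W.Point}
    (hS : InE1 A S) (k : ℕ) :
    A.valuation (lam β (k • S) - lam β S ^ k) ≤ A.valuation W.Δ * A.valuation (lam β S - 1) := by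
  induction k with
  | zero =>
    rw [zero_smul, lam_zero, pow_zero, sub_self, map_zero]
    exact zero_le
  | succ k ih =>
    have hk1 : InE0 A (k • S + S) := by
      have := node_inE1_nsmul hyp hS (k + 1)
      rw [succ_nsmul] at this
      exact node_inE0_of_inE1 this
    have h1 := val_lam_add hyp hβ (k • S) S (node_inE0_of_inE1 (node_inE1_nsmul hyp hS k))
      (node_inE0_of_inE1 hS) hk1
    have h2 : A.valuation ((lam β (k • S) - lam β S ^ k) * lam β S) ≤
        A.valuation W.Δ * A.valuation (lam β S - 1) := by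
      rw [map_mul, val_lam_eq_one hyp hβ S (node_inE0_of_inE1 hS), mul_one]
      exact ih
    have e : lam β ((k + 1) • S) - lam β S ^ (k + 1) =
        (lam β (k • S + S) - lam β (k • S) * lam β S) +
          (lam β (k • S) - lam β S ^ k) * lam β S := by
      rw [succ_nsmul, pow_succ]; ring
    rw [e]
    exact Valuation.map_add_le _ h1 h2

omit [DecidableEq L] [IsAlgClosed L] in
/-- `lam S ≠ 1` for `S ∈ E₀`, `S ≠ O`. -/
lemma node_lam_sub_one_ne_zero (hyp : NodeHyp A W) {β : L} (hβ : β ^ 2 = W.a₂) {S : W.Point}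
    (hS : InE0 A S) (hS0 : S ≠ 0) : lam β S - 1 ≠ 0 := by
  rcases S with _ | ⟨x, y, h⟩
  · exact absurd rfl hS0
  · have hx : 1 ≤ A.valuation x := hS
    have h1 := val_lam_sub_one_sq hyp hβ h hx
    intro h0
    rw [h0, map_zero, zero_pow (by norm_num), zero_mul] at h1
    exact zero_ne_one h1

end L4

/-- Leaf **NODE-L4**, from leaf V2 of S44 package C. -/
theorem stmt_NodeL4_of (hV2 : Stmt_V2) : Stmt_NodeL4 := by
  intro L _ _ _ A W hyp β hβ p hp hp1 hbp S hS hpS hsmall
  by_contra hS0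
  set δ : L := lam β S - 1 with hδ
  have hδ0 : δ ≠ 0 := node_lam_sub_one_ne_zero hyp hβ (node_inE0_of_inE1 hS) hS0
  have hδ1 : A.valuation δ < 1 := val_lam_sub_one_lt hyp hβ S hS
  have h1 := node_val_lam_nsmul hyp hβ hS p
  rw [hpS, lam_zero] at h1
  have e : lam β S = 1 + δ := by rw [hδ]; ring
  rw [e, Valuation.map_sub_swap, add_sub_cancel_left] at h1
  rw [hV2 L A.ValueGroup A.valuation p hp δ hδ1 hsmall] at h1
  have hδpos : 0 < A.valuation δ := by
    rw [Valuation.pos_iff]; exact hδ0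
  have := (mul_le_mul_iff_left₀ hδpos).1 h1
  exact absurd hbp (not_lt.2 this)

/-- Leaf **NODE-L4**. -/
theorem stmt_NodeL4 : Stmt_NodeL4 := stmt_NodeL4_of Fermat.Agent.S44.C.H01.stmt_V2

end Fermat.Agent.S39.FinMult.H33
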