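/-
S39 leaf FinMult (helper33), NODE-STRUCT: the structure of the point group of the node model
`y² = x³ + a x² + b x + c` (`NodeHyp`), transported from the S05 model by the shift
`x ↦ x - e`, `e` a small root of the cubic.
Plan: NOTES/plan/L_S39_FinMult.md.

* `stmt_NodeE1`   : `E₁` is a subgroup;
* `stmt_NodeRoot` : a point of order `p` outside `E₀`;
* `stmt_NodeM1`   : the component homomorphism.
-/
import Fermat.Agent.S39.FinMult.Defs
import Fermat.Agent.S05.M1Final
import Fermat.Agent.S05.Core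
import Fermat.Agent.Tate.T6.H97_Root

set_option autoImplicit false

namespace Fermat.Agent.S39.FinMult.H33

open WeierstrassCurve WeierstrassCurve.Affine Polynomial
open Fermat.Agent.S05 (ModelHyp InE0 InE1 valUnit bUnit CompGroup)
open Fermat.Agent.S05.H14 (IsVarChange fx fy)

section shift

variable {L : Type*} [Field L]

/-- The cubic `x³ + a x² + b x + c` of the node model. -/
def cub (W : Affine L) (x : L) : L := x ^ 3 + W.a₂ * x ^ 2 + W.a₄ * x + W.a₆

/-- The S05 model obtained from the node model by the shift `x ↦ x - e`. -/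
def shiftModel (W : Affine L) (e : L) : Affine L :=
  ⟨0, W.a₂ + 3 * e, 0, 3 * e ^ 2 + 2 * W.a₂ * e + W.a₄, 0⟩

@[simp] lemma shiftModel_a₁ (W : Affine L) (e : L) : (shiftModel W e).a₁ = 0 := rfl
@[simp] lemma shiftModel_a₃ (W : Affine L) (e : L) : (shiftModel W e).a₃ = 0 := rfl
@[simp] lemma shiftModel_a₆ (W : Affine L) (e : L) : (shiftModel W e).a₆ = 0 := rfl
lemma shiftModel_a₂ (W : Affine L) (e : L) : (shiftModel W e).a₂ = W.a₂ + 3 * e := rfl
lemma shiftModel_a₄ (W : Affine L) (e : L) :
    (shiftModel W e).a₄ = 3 * e ^ 2 + 2 * W.a₂ * e + W.a₄ := rfl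

/-- The shift is a change of variables. -/
lemma isVarChange_shift (W : Affine L) (h₁ : W.a₁ = 0) (h₃ : W.a₃ = 0) (e : L)
    (he : cub W e = 0) : IsVarChange W (shiftModel W e) 1 (-e) 0 0 := by
  unfold cub at he
  refine ⟨one_ne_zero, ?_, ?_, ?_, ?_, ?_⟩
  · simp [h₁]
  · simp only [shiftModel_a₂, shiftModel_a₁]; ring
  · simp [h₃]
  · simp only [shiftModel_a₂, shiftModel_a₁, shiftModel_a₃, shiftModel_a₄]; ring
  · simp only [shiftModel_a₂, shiftModel_a₁, shiftModel_a₃, shiftModel_a₄, shiftModel_a₆]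
    linear_combination he

/-- The discriminant of a curve with `a₁ = a₃ = 0`. -/
lemma Δ_of_a₁_a₃ (W : Affine L) (h₁ : W.a₁ = 0) (h₃ : W.a₃ = 0) :
    W.Δ = 16 * (-4 * W.a₂ ^ 3 * W.a₆ + W.a₂ ^ 2 * W.a₄ ^ 2 - 4 * W.a₄ ^ 3 - 27 * W.a₆ ^ 2
      + 18 * W.a₂ * W.a₄ * W.a₆) := by
  simp only [WeierstrassCurve.Δ, WeierstrassCurve.b₂, WeierstrassCurve.b₄, WeierstrassCurve.b₆,
    WeierstrassCurve.b₈, h₁, h₃]
  ring

/-- The discriminant of the shifted model. -/
lemma Δ_shiftModel' (W : Affine L) (e : L) :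
    (shiftModel W e).Δ = 16 * (shiftModel W e).a₄ ^ 2 *
      ((shiftModel W e).a₂ ^ 2 - 4 * (shiftModel W e).a₄) := by
  rw [Δ_of_a₁_a₃ _ (shiftModel_a₁ W e) (shiftModel_a₃ W e), shiftModel_a₆]
  ring

/-- The shift does not change the discriminant. -/
lemma Δ_shiftModel (W : Affine L) (h₁ : W.a₁ = 0) (h₃ : W.a₃ = 0) (e : L)
    (he : cub W e = 0) : (shiftModel W e).Δ = W.Δ := by
  unfold cub at he
  have hc : W.a₆ = -(e ^ 3 + W.a₂ * e ^ 2 + W.a₄ * e) := by linear_combination he
  rw [Δ_shiftModel', Δ_of_a₁_a₃ W h₁ h₃, shiftModel_a₂, shiftModel_a₄, hc]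
  ring

end shift

section val

variable {L : Type*} [Field L] {A : ValuationSubring L} {W : Affine L}

lemma val_three_le (hyp : NodeHyp A W) : A.valuation (3 : L) ≤ 1 := by
  have e : (3 : L) = 2 + 1 := by norm_num
  rw [e]
  exact (A.valuation.map_add _ _).trans (max_le hyp.two.le (by rw [map_one]))

lemma val_four (hyp : NodeHyp A W) : A.valuation (4 : L) = 1 := by
  have : (4 : L) = 2 * 2 := by norm_num
  rw [this, map_mul, hyp.two, one_mul]

lemma val_sixteen (hyp : NodeHyp A W) : A.valuation (16 : L) = 1 := by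
  have : (16 : L) = 4 * 4 := by norm_num
  rw [this, map_mul, val_four hyp, one_mul]

lemma val_b_lt (hyp : NodeHyp A W) : A.valuation W.a₄ < 1 := lt_of_le_of_lt hyp.b_le hyp.Δ_lt

lemma val_c_lt (hyp : NodeHyp A W) : A.valuation W.a₆ < 1 := lt_of_le_of_lt hyp.c_le hyp.Δ_lt

/-- A small root of the cubic. -/
lemma exists_small_root [IsAlgClosed L] (hyp : NodeHyp A W) :
    ∃ e : L, cub W e = 0 ∧ A.valuation e < 1 := by
  set g : L[X] := (Cubic.mk 1 W.a₂ W.a₄ W.a₆).toPoly with hg
  have hg0 : g ≠ 0 := Cubic.ne_zero_of_a_ne_zero (P := Cubic.mk 1 W.a₂ W.a₄ W.a₆) one_ne_zero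
  by_contra hcon
  push Not at hcon
  have hroots : ∀ ξ ∈ g.roots, 1 ≤ A.valuation ξ := by
    intro ξ hξ
    apply hcon ξ
    have := (mem_roots hg0).1 hξ
    rw [IsRoot.def, hg, Cubic.toPoly] at this
    simp only [eval_add, eval_mul, eval_C, eval_pow, eval_X] at this
    unfold cub
    linear_combination this
  have h := Fermat.Agent.Tate.T6.H97.coeff_le_coeff_zero_of_roots A g hroots 3
  rw [hg, Cubic.coeff_eq_a, Cubic.coeff_eq_d, map_one] at h
  exact absurd (val_c_lt hyp) (not_lt.2 h)

variable {e : L}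

/-- `|a + 3e| = 1`. -/
lemma val_a_shift (hyp : NodeHyp A W) (he1 : A.valuation e < 1) :
    A.valuation (shiftModel W e).a₂ = 1 := by
  rw [shiftModel_a₂, Valuation.map_add_eq_of_lt_left, hyp.a_one]
  rw [hyp.a_one, map_mul]
  calc A.valuation 3 * A.valuation e ≤ 1 * A.valuation e := by
        gcongr
        exact val_three_le hyp
    _ = A.valuation e := one_mul _
    _ < 1 := he1

/-- `|b'| < 1`. -/
lemma val_b_shift_lt (hyp : NodeHyp A W) (he1 : A.valuation e < 1) :
    A.valuation (shiftModel W e).a₄ < 1 := by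
  rw [shiftModel_a₄]
  refine Valuation.map_add_lt _ (Valuation.map_add_lt _ ?_ ?_) (val_b_lt hyp)
  · rw [map_mul, map_pow]
    calc A.valuation 3 * A.valuation e ^ 2 ≤ 1 * A.valuation e ^ 2 := by
          gcongr
          exact val_three_le hyp
      _ = A.valuation e ^ 2 := one_mul _
      _ < 1 := pow_lt_one₀ zero_le he1 two_ne_zero
  · rw [map_mul, map_mul, hyp.two, hyp.a_one, one_mul, one_mul]
    exact he1

/-- `|a'² - 4 b'| = 1`. -/
lemma val_disc_shift (hyp : NodeHyp A W) (he1 : A.valuation e < 1) :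
    A.valuation ((shiftModel W e).a₂ ^ 2 - 4 * (shiftModel W e).a₄) = 1 := by
  have h1 : A.valuation ((shiftModel W e).a₂ ^ 2) = 1 := by
    rw [map_pow, val_a_shift hyp he1, one_pow]
  rw [Valuation.map_sub_eq_of_lt_left, h1]
  rw [h1, map_mul, val_four hyp, one_mul]
  exact val_b_shift_lt hyp he1

/-- `|b'|² = |Δ|`. -/
lemma val_b_shift_sq (hyp : NodeHyp A W) (he : cub W e = 0) (he1 : A.valuation e < 1) :
    A.valuation (shiftModel W e).a₄ ^ 2 = A.valuation W.Δ := by
  rw [← Δ_shiftModel W hyp.a₁ hyp.a₃ e he, Δ_shiftModel', map_mul, map_mul, val_sixteen hyp,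
    val_disc_shift hyp he1, one_mul, mul_one, map_pow]

lemma b_shift_ne_zero (hyp : NodeHyp A W) (he : cub W e = 0) (he1 : A.valuation e < 1) :
    (shiftModel W e).a₄ ≠ 0 := by
  intro h
  have := val_b_shift_sq hyp he he1
  rw [h, map_zero, zero_pow two_ne_zero] at this
  exact hyp.Δ_ne ((map_eq_zero _).1 this.symm)

/-- The shifted model satisfies the hypotheses of S05. -/
lemma modelHyp_shift (hyp : NodeHyp A W) (he : cub W e = 0) (he1 : A.valuation e < 1) :
    ModelHyp A (shiftModel W e) :=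
  ⟨rfl, rfl, rfl, (val_a_shift hyp he1).le, (val_b_shift_lt hyp he1).le,
    b_shift_ne_zero hyp he he1, hyp.two, val_disc_shift hyp he1⟩

/-- `|e| ≤ |b'|`. -/
lemma val_e_le (hyp : NodeHyp A W) (he : cub W e = 0) (he1 : A.valuation e < 1) :
    A.valuation e ≤ A.valuation (shiftModel W e).a₄ := by
  by_contra hcon
  push Not at hcon
  have hsq := val_b_shift_sq hyp he he1
  have hb1 := val_b_shift_lt hyp he1
  have he0 : 0 < A.valuation e := lt_of_le_of_lt zero_le hcon
  -- `2 a e = b' - 3 e² - b`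
  have hid : 2 * W.a₂ * e = (shiftModel W e).a₄ - 3 * e ^ 2 - W.a₄ := by
    rw [shiftModel_a₄]; ring
  have h1 : A.valuation (2 * W.a₂ * e) = A.valuation e := by
    rw [map_mul, map_mul, hyp.two, hyp.a_one, one_mul, one_mul]
  have h2 : A.valuation (3 * e ^ 2) < A.valuation e := by
    rw [map_mul, map_pow]
    calc A.valuation 3 * A.valuation e ^ 2 ≤ 1 * A.valuation e ^ 2 := by
          gcongr
          exact val_three_le hyp
      _ = A.valuation e * A.valuation e := by rw [one_mul, sq]
      _ < A.valuation e * 1 := mul_lt_mul_of_pos_left he1 he0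
      _ = A.valuation e := mul_one _
  have h3 : A.valuation W.a₄ < A.valuation e := by
    refine lt_of_le_of_lt ?_ hcon
    calc A.valuation W.a₄ ≤ A.valuation W.Δ := hyp.b_le
      _ = A.valuation (shiftModel W e).a₄ ^ 2 := hsq.symm
      _ ≤ A.valuation (shiftModel W e).a₄ := by
        rw [sq]
        exact mul_le_of_le_one_right' hb1.le
  have h4 : A.valuation ((shiftModel W e).a₄ - 3 * e ^ 2 - W.a₄) < A.valuation e :=
    Valuation.map_sub_lt _ (Valuation.map_sub_lt _ hcon h2) h3
  rw [← hid, h1] at h4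
  exact lt_irrefl _ h4

end val

section transport

variable {L : Type*} [Field L] {A : ValuationSubring L} {W : Affine L}

lemma one_le_val_sub_iff {e : L} (he1 : A.valuation e < 1) (x : L) :
    1 ≤ A.valuation (x - e) ↔ 1 ≤ A.valuation x := by
  constructor
  · intro h
    have e1 : x = (x - e) + e := by ring
    rw [e1, Valuation.map_add_eq_of_lt_left _ (lt_of_lt_of_le he1 h)]
    exact h
  · intro h
    rw [Valuation.map_sub_eq_of_lt_left _ (lt_of_lt_of_le he1 h)]
    exact h

lemma one_lt_val_sub_iff {e : L} (he1 : A.valuation e < 1) (x : L) :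
    1 < A.valuation (x - e) ↔ 1 < A.valuation x := by
  constructor
  · intro h
    have e1 : x = (x - e) + e := by ring
    rw [e1, Valuation.map_add_eq_of_lt_left _ (lt_trans he1 h)]
    exact h
  · intro h
    rw [Valuation.map_sub_eq_of_lt_left _ (lt_trans he1 h)]
    exact h

variable [DecidableEq L]

/-- The shift on points. -/
noncomputable def shiftEquiv (hyp : NodeHyp A W) {e : L} (he : cub W e = 0) :
    W.Point ≃+ (shiftModel W e).Point :=
  (isVarChange_shift W hyp.a₁ hyp.a₃ e he).addEquiv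

omit [DecidableEq L] in
lemma fx_shift (e x : L) : fx (1 : L) (-e) x = x - e := by
  simp only [fx]; ring

omit [DecidableEq L] in
lemma fy_shift (x y : L) : fy (1 : L) 0 0 x y = y := by
  simp only [fy]; ring

lemma shiftEquiv_some (hyp : NodeHyp A W) {e : L} (he : cub W e = 0) {x y : L}
    (h : W.Nonsingular x y) :
    ∃ h' : (shiftModel W e).Nonsingular (x - e) y,
      shiftEquiv hyp he (Point.some x y h) = Point.some (x - e) y h' := by
  have hvc := isVarChange_shift W hyp.a₁ hyp.a₃ e he
  have hn := (hvc.nonsingular_iff x y).2 h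
  have hn' : (shiftModel W e).Nonsingular (x - e) y := by
    rw [fx_shift, fy_shift] at hn
    exact hn
  refine ⟨hn', ?_⟩
  show hvc.addEquiv (Point.some x y h) = _
  rw [hvc.addEquiv_some]
  exact IsVarChange.some_congr (fx_shift e x) (fy_shift x y) _ _

lemma shiftEquiv_zero (hyp : NodeHyp A W) {e : L} (he : cub W e = 0) :
    shiftEquiv hyp he (0 : W.Point) = 0 := map_zero _

lemma inE0_shift_iff (hyp : NodeHyp A W) {e : L} (he : cub W e = 0) (he1 : A.valuation e < 1)
    (P : W.Point) : InE0 A (shiftEquiv hyp he P) ↔ InE0 A P := by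
  rcases P with _ | ⟨x, y, h⟩
  · exact Iff.rfl
  · obtain ⟨h', heq⟩ := shiftEquiv_some hyp he h
    rw [heq]
    exact one_le_val_sub_iff he1 x

lemma inE1_shift_iff (hyp : NodeHyp A W) {e : L} (he : cub W e = 0) (he1 : A.valuation e < 1)
    (P : W.Point) : InE1 A (shiftEquiv hyp he P) ↔ InE1 A P := by
  rcases P with _ | ⟨x, y, h⟩
  · exact Iff.rfl
  · obtain ⟨h', heq⟩ := shiftEquiv_some hyp he h
    rw [heq]
    exact one_lt_val_sub_iff he1 x

end transport

/-- **NODE-E1**. -/
theorem stmt_NodeE1 : Stmt_NodeE1 := by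
  intro L _ _ _ A W hyp P Q hP hQ
  obtain ⟨e, he, he1⟩ := exists_small_root hyp
  have h := Fermat.Agent.S05.H5.E1_add A (shiftModel W e) (modelHyp_shift hyp he he1)
    (shiftEquiv hyp he P) (shiftEquiv hyp he Q) ((inE1_shift_iff hyp he he1 P).2 hP)
    ((inE1_shift_iff hyp he he1 Q).2 hQ)
  rw [← map_add] at h
  exact (inE1_shift_iff hyp he he1 _).1 h

/-- **NODE-ROOT**. -/
theorem stmt_NodeRoot : Stmt_NodeRoot := by
  intro L _ _ _ _ A p hp hp2 hpA W hyp
  obtain ⟨e, he, he1⟩ := exists_small_root hyp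
  have hyp' := modelHyp_shift hyp he he1
  obtain ⟨x, y, h, hpt, hx⟩ := Fermat.Agent.Tate.T6.H97.stmt_ROOT L A p hp hp2 hpA
    (shiftModel W e) hyp' (val_b_shift_lt hyp he1) hyp'.Δ_ne_zero
  obtain ⟨P, hPdef⟩ : ∃ P, P = (shiftEquiv hyp he).symm (Point.some x y h) := ⟨_, rfl⟩
  have hΦP : shiftEquiv hyp he P = Point.some x y h := by
    rw [hPdef, AddEquiv.apply_symm_apply]
  have hpP : p • P = 0 := by
    apply (shiftEquiv hyp he).injective
    rw [map_nsmul, hΦP, hpt, map_zero]
  rcases P with _ | ⟨x', y', h'⟩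
  · exfalso
    have : shiftEquiv hyp he (0 : W.Point) = Point.some x y h := hΦP
    rw [shiftEquiv_zero] at this
    exact Point.some_ne_zero h this.symm
  · refine ⟨x', y', h', hpP, ?_⟩
    obtain ⟨h'', heq⟩ := shiftEquiv_some hyp he h'
    rw [heq] at hΦP
    have hx' : x' - e = x := by injection hΦP
    have e1 : x' = x + e := by rw [← hx']; ring
    rw [e1]
    exact Valuation.map_add_lt _ hx he1

/-- **NODE-M1**. -/
theorem stmt_NodeM1 : Stmt_NodeM1 := by
  intro L _ _ _ A W hyp β hβ
  obtain ⟨e, he, he1⟩ := exists_small_root hyp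
  have hyp' := modelHyp_shift hyp he he1
  have hb' := val_b_shift_lt hyp he1
  have h3e : A.valuation (3 * e) < 1 := by
    rw [map_mul]
    calc A.valuation 3 * A.valuation e ≤ 1 * A.valuation e := by
          gcongr
          exact val_three_le hyp
      _ = A.valuation e := one_mul _
      _ < 1 := he1
  -- `β'` with `β'² = a + 3e` and `|β' - β| < 1`
  obtain ⟨γ, hγ⟩ := IsAlgClosed.exists_pow_nat_eq ((shiftModel W e).a₂) (n := 2) (by norm_num)
  obtain ⟨β', hβ', hββ'⟩ : ∃ β' : L, β' ^ 2 = (shiftModel W e).a₂ ∧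
      A.valuation (β' - β) < 1 := by
    have hprod : (γ - β) * (γ + β) = 3 * e := by
      have : γ ^ 2 - β ^ 2 = 3 * e := by rw [hγ, hβ, shiftModel_a₂]; ring
      linear_combination this
    by_cases h1 : A.valuation (γ - β) < 1
    · exact ⟨γ, hγ, h1⟩
    · refine ⟨-γ, by rw [neg_sq, hγ], ?_⟩
      have h2 : A.valuation (γ + β) < 1 := by
        by_contra h2
        push Not at h1 h2
        have : (1 : A.ValueGroup) ≤ A.valuation (γ - β) * A.valuation (γ + β) := by
          calc (1 : A.ValueGroup) = 1 * 1 := (one_mul 1).symm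
            _ ≤ A.valuation (γ - β) * A.valuation (γ + β) := mul_le_mul' h1 h2
        rw [← map_mul, hprod] at this
        exact absurd h3e (not_lt.2 this)
      have : -γ - β = -(γ + β) := by ring
      rw [this, Valuation.map_neg]
      exact h2
  have hvβ' : A.valuation β' = 1 := by
    have : A.valuation β' ^ 2 = 1 := by rw [← map_pow, hβ', val_a_shift hyp he1]
    exact (pow_eq_one_iff_left two_ne_zero).mp this
  obtain ⟨φ', hker', hφ'⟩ := Fermat.Agent.S05.M1 A (shiftModel W e) hyp' hb' β' hβ'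
  -- identification of the component groups
  have hU : bUnit hyp' ^ 2 = dUnit hyp := by
    apply Units.ext
    simp only [bUnit, dUnit, Units.val_pow_eq_pow_val, Units.val_mk0]
    exact val_b_shift_sq hyp he he1
  have hsub : Subgroup.zpowers (bUnit hyp' ^ 2) = Subgroup.zpowers (dUnit hyp) := by rw [hU]
  let τ : Additive (CompGroup hyp') →+ Additive (NodeComp hyp) :=
    MonoidHom.toAdditive (QuotientGroup.quotientMulEquivOfEq hsub).toMonoidHom
  have hτinj : Function.Injective τ := by
    intro a b hab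
    exact (QuotientGroup.quotientMulEquivOfEq hsub).injective hab
  have hτmk : ∀ g : (A.ValueGroup)ˣ, τ (Additive.ofMul (QuotientGroup.mk g)) =
      Additive.ofMul (QuotientGroup.mk g) := fun g => rfl
  refine ⟨τ.comp (φ'.comp (shiftEquiv hyp he).toAddMonoidHom), ?_, ?_⟩
  · intro P
    show τ (φ' (shiftEquiv hyp he P)) = 0 ↔ _
    rw [← inE0_shift_iff hyp he he1 P, ← hker']
    constructor
    · intro h
      exact hτinj (by rw [h, map_zero])
    · intro h
      rw [h, map_zero]
  · intro x y h hx0 hΔx hx1 hbr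
    show τ (φ' (shiftEquiv hyp he (Point.some x y h))) = _
    obtain ⟨h', heq⟩ := shiftEquiv_some hyp he h
    rw [heq]
    have hbx : A.valuation (shiftModel W e).a₄ < A.valuation x := by
      by_contra hcon
      push Not at hcon
      have := pow_le_pow_left₀ zero_le hcon 2
      rw [val_b_shift_sq hyp he he1] at this
      exact absurd hΔx (not_lt.2 this)
    have hex : A.valuation e < A.valuation x := lt_of_le_of_lt (val_e_le hyp he he1) hbx
    have hvx : A.valuation (x - e) = A.valuation x := Valuation.map_sub_eq_of_lt_left _ hex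
    have hxe0 : x - e ≠ 0 := by
      intro h0
      rw [h0, map_zero] at hvx
      exact hx0 ((map_eq_zero _).1 hvx.symm)
    have hbr' : A.valuation (y - β' * (x - e)) < A.valuation (x - e) := by
      rw [hvx]
      have e1 : y - β' * (x - e) = (y - β * x) - (β' - β) * x + β' * e := by ring
      rw [e1]
      refine Valuation.map_add_lt _ (Valuation.map_sub_lt _ hbr ?_) ?_
      · rw [map_mul]
        calc A.valuation (β' - β) * A.valuation x < 1 * A.valuation x :=
              mul_lt_mul_of_pos_right hββ' (lt_of_le_of_lt zero_le hex)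
          _ = A.valuation x := one_mul _
      · rw [map_mul, hvβ', one_mul]
        exact hex
    rw [hφ' (x - e) y h' hxe0 (by rw [hvx]; exact hbx) (by rw [hvx]; exact hx1) hbr', hτmk]
    congr 2
    apply Units.ext
    simp only [valUnit, Units.val_mk0]
    exact hvx

end Fermat.Agent.S39.FinMult.H33
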